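/-
S29lib / D / Restrict  (helper3, block D: base change of torsion classes).

**(H1)** restriction of places along a homomorphism of function fields.

Let `F / K` and `F' / K'` be "function fields" in the prelude language (`AlgebraicCurve.Place`),
and `Φ : F →+* F'` a ring homomorphism mapping constants to constants.  For every place `P'` of
`F' / K'` the restriction of its valuation ring to `F` is either all of `F` (then every `Φ z`,
`z ≠ 0`, is a unit at `P'`), or the valuation ring of a place `P` of `F / K`, and then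
`ord_{P'} (Φ z) = e · ord_P z` for a positive integer `e` (the ramification index).

Pure valuation theory: no finiteness hypothesis of any kind.
-/
import Mathlib
import Fermat.Prelude.Def_AlgebraicCurve_DivisorClassGroup
import Fermat.Agent.ProgramR.FunctionField.PlaceDedekind

set_option autoImplicit false

namespace Fermat.Agent.S29lib.D

open AlgebraicCurve Fermat.Agent.ProgramR

variable {K K' F F' : Type*} [Field K] [Field K'] [Field F] [Field F']
  [Algebra K F] [Algebra K' F']

/-- the order of a product of a nonzero function with an inverse. -/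
lemma ord_div (v : Place K F) {f g : F} (hf : f ≠ 0) (hg : g ≠ 0) :
    v.ord (f / g) = v.ord f - v.ord g := by
  rw [div_eq_mul_inv, v.ord_mul hf (inv_ne_zero hg), v.ord_inv]
  ring

/-- The restriction to `F` of the valuation ring of a place of `F'` is a principal ideal ring. -/
theorem isPrincipalIdealRing_comap (Φ : F →+* F') (P' : Place K' F') :
    IsPrincipalIdealRing (P'.toValuationSubring.comap Φ) := by
  classical
  refine ⟨fun I => ?_⟩
  by_cases hI : I = ⊥
  · exact hI ▸ ⟨⟨0, by simp⟩⟩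
  -- the set of orders of the nonzero elements of `I`
  have hex : ∃ n : ℕ, ∃ z : (P'.toValuationSubring.comap Φ), z ∈ I ∧ z ≠ 0 ∧
      P'.ord (Φ (z : F)) = n := by
    obtain ⟨z, hzI, hz0⟩ := Submodule.exists_mem_ne_zero_of_ne_bot hI
    have hz : Φ (z : F) ∈ P'.toValuationSubring := z.2
    obtain ⟨n, hn⟩ := Int.eq_ofNat_of_zero_le ((FF.mem_iff_ord_nonneg P' _).1 hz)
    exact ⟨n, z, hzI, hz0, hn⟩
  obtain ⟨z₀, hz₀I, hz₀0, hz₀⟩ := Nat.find_spec hex
  have hmin : ∀ z : (P'.toValuationSubring.comap Φ), z ∈ I → z ≠ 0 →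
      P'.ord (Φ (z₀ : F)) ≤ P'.ord (Φ (z : F)) := by
    intro z hzI hz0
    have hz : Φ (z : F) ∈ P'.toValuationSubring := z.2
    obtain ⟨n, hn⟩ := Int.eq_ofNat_of_zero_le ((FF.mem_iff_ord_nonneg P' _).1 hz)
    have := Nat.find_min' hex ⟨z, hzI, hz0, hn⟩
    rw [hz₀, hn]
    exact_mod_cast this
  refine ⟨⟨z₀, le_antisymm ?_ ?_⟩⟩
  · intro w hw
    rw [Submodule.mem_span_singleton]
    by_cases hw0 : w = 0
    · exact ⟨0, by simp [hw0]⟩
    have hz₀F : (z₀ : F) ≠ 0 := fun h => hz₀0 (Subtype.ext h)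
    have hwF : (w : F) ≠ 0 := fun h => hw0 (Subtype.ext h)
    have hmem : (w : F) / (z₀ : F) ∈ P'.toValuationSubring.comap Φ := by
      show Φ ((w : F) / (z₀ : F)) ∈ P'.toValuationSubring
      rw [FF.mem_iff_ord_nonneg, map_div₀,
        ord_div P' ((map_ne_zero Φ).2 hwF) ((map_ne_zero Φ).2 hz₀F)]
      have := hmin w hw hw0
      omega
    refine ⟨⟨(w : F) / (z₀ : F), hmem⟩, ?_⟩
    apply Subtype.ext
    show (w : F) / (z₀ : F) * (z₀ : F) = (w : F)
    field_simp
  · rw [Submodule.span_singleton_le_iff_mem]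
    exact hz₀I

/-- The restriction to `F / K` of a place `P'` of `F' / K'` whose valuation ring does not
contain all of `Φ F`. -/
def restrictPlace (Φ : F →+* F')
    (hΦ : ∀ a : K, ∃ b : K', Φ (algebraMap K F a) = algebraMap K' F' b) (P' : Place K' F')
    (h : P'.toValuationSubring.comap Φ ≠ ⊤) : Place K F where
  toValuationSubring := P'.toValuationSubring.comap Φ
  algebraMap_mem' := fun a => by
    obtain ⟨b, hb⟩ := hΦ a
    show Φ (algebraMap K F a) ∈ P'.toValuationSubring
    rw [hb]
    exact P'.algebraMap_mem' b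
  ne_top' := h
  isPrincipalIdealRing' := isPrincipalIdealRing_comap Φ P'

@[simp]
lemma restrictPlace_toValuationSubring (Φ : F →+* F')
    (hΦ : ∀ a : K, ∃ b : K', Φ (algebraMap K F a) = algebraMap K' F' b) (P' : Place K' F')
    (h : P'.toValuationSubring.comap Φ ≠ ⊤) :
    (restrictPlace Φ hΦ P' h).toValuationSubring = P'.toValuationSubring.comap Φ := rfl

/-- if the restriction is trivial, all `Φ z` are units at `P'`. -/
theorem ord_map_eq_zero_of_comap_eq_top (Φ : F →+* F') (P' : Place K' F')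
    (h : P'.toValuationSubring.comap Φ = ⊤) (z : F) : P'.ord (Φ z) = 0 := by
  have h1 : Φ z ∈ P'.toValuationSubring := by
    have : z ∈ P'.toValuationSubring.comap Φ := h ▸ ValuationSubring.mem_top z
    exact this
  have h2 : Φ z⁻¹ ∈ P'.toValuationSubring := by
    have : z⁻¹ ∈ P'.toValuationSubring.comap Φ := h ▸ ValuationSubring.mem_top _
    exact this
  rw [FF.mem_iff_ord_nonneg] at h1 h2
  rw [map_inv₀, P'.ord_inv] at h2
  omega

/-- the order at `P'` of the image of a unit of the restricted valuation ring vanishes. -/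
lemma ord_map_unit (Φ : F →+* F') (P' : Place K' F')
    (u : (P'.toValuationSubring.comap Φ)ˣ) :
    P'.ord (Φ ((u : P'.toValuationSubring.comap Φ) : F)) = 0 := by
  have h1 : Φ ((u : P'.toValuationSubring.comap Φ) : F) ∈ P'.toValuationSubring :=
    (u : P'.toValuationSubring.comap Φ).2
  have h2 : Φ (((u⁻¹ : (P'.toValuationSubring.comap Φ)ˣ) : P'.toValuationSubring.comap Φ) : F)
      ∈ P'.toValuationSubring :=
    ((u⁻¹ : (P'.toValuationSubring.comap Φ)ˣ) : P'.toValuationSubring.comap Φ).2
  have h3 : (((u⁻¹ : (P'.toValuationSubring.comap Φ)ˣ) : P'.toValuationSubring.comap Φ) : F)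
      = (((u : P'.toValuationSubring.comap Φ) : F))⁻¹ := by
    have h4 : ((u : P'.toValuationSubring.comap Φ) : F) *
        (((u⁻¹ : (P'.toValuationSubring.comap Φ)ˣ) : P'.toValuationSubring.comap Φ) : F) = 1 := by
      rw [← MulMemClass.coe_mul, Units.mul_inv, OneMemClass.coe_one]
    exact (inv_eq_of_mul_eq_one_right h4).symm
  rw [h3, map_inv₀] at h2
  rw [FF.mem_iff_ord_nonneg] at h1 h2
  rw [P'.ord_inv] at h2
  omega

/-- **(H1)** in ramification-index form: on the restricted place, `ord_{P'} ∘ Φ = e · ord_P`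
with `e > 0`. -/
theorem exists_ramification (Φ : F →+* F')
    (hΦ : ∀ a : K, ∃ b : K', Φ (algebraMap K F a) = algebraMap K' F' b) (P' : Place K' F')
    (h : P'.toValuationSubring.comap Φ ≠ ⊤) :
    ∃ e : ℕ, 0 < e ∧ ∀ z : F, P'.ord (Φ z) = e * (restrictPlace Φ hΦ P' h).ord z := by
  set P := restrictPlace Φ hΦ P' h with hP
  obtain ⟨π, hπ⟩ := IsDiscreteValuationRing.exists_irreducible P.toValuationSubring
  have hπmem : Φ (π : F) ∈ P'.toValuationSubring := π.2
  have hπF : (π : F) ≠ 0 := by
    simpa [ne_eq, ZeroMemClass.coe_eq_zero] using hπ.ne_zero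
  obtain ⟨e, he⟩ := Int.eq_ofNat_of_zero_le ((FF.mem_iff_ord_nonneg P' _).1 hπmem)
  have hkey : ∀ z : F, P'.ord (Φ z) = e * P.ord z := by
    intro z
    rcases eq_or_ne z 0 with rfl | hz
    · simp
    obtain ⟨u, hu⟩ := P.exists_unit_mul_zpow hz hπ
    have hu0 : Φ ((u : P.toValuationSubring) : F) ≠ 0 := by
      rw [map_ne_zero]
      simp [ne_eq, ZeroMemClass.coe_eq_zero]
    conv_lhs => rw [hu]
    rw [map_mul, map_zpow₀, P'.ord_mul hu0 (zpow_ne_zero _ ((map_ne_zero Φ).2 hπF)),
      P'.ord_zpow, he]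
    have := ord_map_unit Φ P' u
    rw [this]
    ring
  refine ⟨e, ?_, hkey⟩
  rcases Nat.eq_zero_or_pos e with he0 | hpos
  · exfalso
    -- then `π⁻¹` lies in the valuation ring, so `π` is a unit
    have h0 : P'.ord (Φ (π : F)) = 0 := by rw [he, he0]; rfl
    have hinv : (π : F)⁻¹ ∈ P.toValuationSubring := by
      show Φ (π : F)⁻¹ ∈ P'.toValuationSubring
      rw [map_inv₀, FF.mem_iff_ord_nonneg, P'.ord_inv, h0]
      rfl
    apply hπ.not_isUnit
    refine isUnit_iff_exists_inv.mpr ⟨⟨(π : F)⁻¹, hinv⟩, ?_⟩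
    ext
    simp [hπF]
  · exact hpos

/-- **(H1)**: every place of `F'` restricts to `F` trivially or to a place, with a ramification
index. -/
theorem exists_place_restrict (Φ : F →+* F')
    (hΦ : ∀ a : K, ∃ b : K', Φ (algebraMap K F a) = algebraMap K' F' b) (P' : Place K' F') :
    (∀ z : F, z ≠ 0 → P'.ord (Φ z) = 0) ∨
      ∃ (P : Place K F) (e : ℕ), 0 < e ∧ ∀ z : F, P'.ord (Φ z) = e * P.ord z := by
  by_cases h : P'.toValuationSubring.comap Φ = ⊤
  · exact Or.inl fun z _ => ord_map_eq_zero_of_comap_eq_top Φ P' h z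
  · obtain ⟨e, he, hord⟩ := exists_ramification Φ hΦ P' h
    exact Or.inr ⟨_, e, he, hord⟩

/-- divisibility of all orders is inherited by the image. -/
theorem dvd_ord_map (Φ : F →+* F')
    (hΦ : ∀ a : K, ∃ b : K', Φ (algebraMap K F a) = algebraMap K' F' b) {n : ℤ} {f : F}
    (hf : ∀ P : Place K F, n ∣ P.ord f) (P' : Place K' F') : n ∣ P'.ord (Φ f) := by
  rcases eq_or_ne f 0 with rfl | hf0
  · simp
  rcases exists_place_restrict Φ hΦ P' with h | ⟨P, e, -, h⟩
  · rw [h f hf0]; exact dvd_zero n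
  · rw [h f]; exact Dvd.dvd.mul_left (hf P) _

/-- functions without zeros and poles are mapped to functions without zeros and poles. -/
theorem ord_map_eq_zero (Φ : F →+* F')
    (hΦ : ∀ a : K, ∃ b : K', Φ (algebraMap K F a) = algebraMap K' F' b) {f : F}
    (hf : ∀ P : Place K F, P.ord f = 0) (P' : Place K' F') : P'.ord (Φ f) = 0 := by
  rcases eq_or_ne f 0 with rfl | hf0
  · simp
  rcases exists_place_restrict Φ hΦ P' with h | ⟨P, e, -, h⟩
  · exact h f hf0
  · rw [h f, hf P, mul_zero]

end Fermat.Agent.S29lib.D
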