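/-
S29lib / D / AsmKummer (helper2, brick B4).
The Kummer isomorphism for the `ℚ̄`-curve `FBar Qb N`, with the Kummer relation pulled back from
the analytic curve along `ΦFF N e`:  `J₀(N)(ℚ̄)[n] ≃+ {χ : Γ₀(N) → μ_n killing parabolic and
finite order elements}`.  The inputs of the other blocks are bundled in `KInputs`.
-/
import Mathlib
import Fermat.Agent.S29lib.K1.KummerRel
import Fermat.Agent.S29lib.K1.Const
import Fermat.Agent.S29lib.K3.Curve
import Fermat.Agent.S29lib.D.Restrict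
import Fermat.Agent.S18lib.Gin0.Genus
import Fermat.Agent.S16lib.LG.Shimura
import Fermat.Agent.ProgramR.BarField.InftyBar

set_option autoImplicit false
set_option linter.unusedSectionVars false

noncomputable section

namespace Fermat.Agent.S29lib.D

open Fermat.Agent.ProgramR Fermat.Agent.ProgramR.BarField Fermat.Agent.S18lib AlgebraicCurve
open Fermat.Agent.S16lib.LG CongruenceSubgroup
open scoped MatrixGroups

attribute [local instance] Genus.cosetFintype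

/-- `ℚ̄` -/
local notation "Qb" => AlgebraicClosure ℚ

variable (N : ℕ) [NeZero N] (e : Qb →+* ℂ)

/-- the group of characters of `Γ₀(N)` -/
abbrev CharGrp : Type := ↥(Gamma0 N) →* ℂˣ

/-- the characters of exponent `n` killing the parabolic and the finite order elements -/
def charY (n : ℕ) : Subgroup (CharGrp N) where
  carrier := {χ | (∀ γ, χ γ ^ n = 1) ∧ ∀ γ : ↥(Gamma0 N), IsParTor (γ : SL(2, ℤ)) → χ γ = 1}
  one_mem' := ⟨fun γ => by simp, fun _ _ => rfl⟩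
  mul_mem' := by
    rintro χ χ' ⟨h1, h2⟩ ⟨h1', h2'⟩
    refine ⟨fun γ => ?_, fun γ hγ => ?_⟩
    · rw [MonoidHom.mul_apply, mul_pow, h1 γ, h1' γ, one_mul]
    · rw [MonoidHom.mul_apply, h2 γ hγ, h2' γ hγ, one_mul]
  inv_mem' := by
    rintro χ ⟨h1, h2⟩
    refine ⟨fun γ => ?_, fun γ hγ => ?_⟩
    · rw [MonoidHom.inv_apply, inv_pow, h1 γ, inv_one]
    · rw [MonoidHom.inv_apply, h2 γ hγ, inv_one]

lemma mem_charY {n : ℕ} {χ : CharGrp N} :
    χ ∈ charY N n ↔ (∀ γ, χ γ ^ n = 1) ∧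
      ∀ γ : ↥(Gamma0 N), IsParTor (γ : SL(2, ℤ)) → χ γ = 1 := Iff.rfl

/-- the Kummer relation on the `ℚ̄`-curve, pulled back from the analytic curve -/
def relQ (n : ℕ) (f : FBar Qb N) (χ : CharGrp N) : Prop :=
  K1.IsKum (Gamma0 N) n (ΦFF N e f) χ

/-- **the inputs** of the other blocks at exponent `n`. -/
structure KInputs (n : ℕ) : Prop where
  /-- (K3a) divisor divisible by `n` ⇒ orders on `ℍ` divisible by `n` -/
  dict : ∀ f' : K3.Fan N, f' ≠ 0 → (∀ v' : Place ℂ (K3.Fan N), (n : ℤ) ∣ v'.ord f') →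
    K1.HDiv (Gamma0 N) n f'
  /-- (D-inj) -/
  inj : ∀ f : FBar Qb N, f ≠ 0 → (∃ g' : K3.Fan N, g' ^ n = ΦFF N e f) →
    ∃ g : FBar Qb N, g ≠ 0 ∧ g ^ n = f
  /-- (K3b ⇒) the Kummer character kills the parabolic and the finite order elements -/
  par : ∀ (f' : K3.Fan N) (χ : CharGrp N), f' ≠ 0 →
    (∀ v' : Place ℂ (K3.Fan N), (n : ℤ) ∣ v'.ord f') → K1.IsKum (Gamma0 N) n f' χ →
    ∀ γ : ↥(Gamma0 N), IsParTor (γ : SL(2, ℤ)) → χ γ = 1
  /-- (K2 + K3b ⇐) every such character is a Kummer character over `ℂ` -/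
  surjC : ∀ χ ∈ charY N n, ∃ f' : K3.Fan N, f' ≠ 0 ∧
    (∀ v' : Place ℂ (K3.Fan N), (n : ℤ) ∣ v'.ord f') ∧ K1.IsKum (Gamma0 N) n f' χ
  /-- (D-surj) -/
  surjD : ∀ f' : K3.Fan N, f' ≠ 0 → (∀ v' : Place ℂ (K3.Fan N), (n : ℤ) ∣ v'.ord f') →
    ∃ f₀ : FBar Qb N, f₀ ≠ 0 ∧ (∀ v : Place Qb (FBar Qb N), (n : ℤ) ∣ v.ord f₀) ∧
      ∃ u : K3.Fan N, u ≠ 0 ∧ f' * u ^ n = ΦFF N e f₀

lemma ΦFF_const (a : Qb) :
    ∃ b : ℂ, ΦFF N e (algebraMap Qb (FBar Qb N) a) = algebraMap ℂ (K3.Fan N) b :=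
  ⟨e a, ΦBar_algebraMap N e a⟩

lemma ΦFF_ne_zero {f : FBar Qb N} (hf : f ≠ 0) : ΦFF N e f ≠ 0 :=
  (map_ne_zero (ΦFF N e)).2 hf

variable {N e}

/-- divisibility of the divisor passes to the analytic curve -/
lemma dvd_ord_ΦFF {n : ℕ} {f : FBar Qb N}
    (hf : ∀ v : Place Qb (FBar Qb N), (n : ℤ) ∣ v.ord f) (v' : Place ℂ (K3.Fan N)) :
    (n : ℤ) ∣ v'.ord (ΦFF N e f) :=
  dvd_ord_map (ΦFF N e) (ΦFF_const N e) hf v'

/-- the pulled-back relation satisfies the abstract Kummer hypotheses -/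
theorem kummerRel_relQ {n : ℕ} (hn : 0 < n) (I : KInputs N e n) :
    K1.KummerRel Qb (FBar Qb N) n (relQ N e n) where
  unique := fun _ _ _ h h' => K1.IsKum.unique hn h h'
  exists_of_dvd := fun f hf hdvd =>
    (I.dict _ (ΦFF_ne_zero N e hf) (dvd_ord_ΦFF hdvd)).exists_isKum hn (ΦFF_ne_zero N e hf)
  mul := fun f f' χ χ' h h' => by
    show K1.IsKum (Gamma0 N) n (ΦFF N e (f * f')) (χ * χ')
    rw [map_mul]
    exact h.mul h'
  pow := fun h hh => by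
    show K1.IsKum (Gamma0 N) n (ΦFF N e (h ^ n)) 1
    rw [map_pow]
    exact K1.isKum_pow (ΦFF_ne_zero N e hh)
  ker := fun f h => by
    have hf : f ≠ 0 := by
      rintro rfl
      exact h.ne_zero (map_zero _)
    obtain ⟨g', -, hg'⟩ := K1.IsKum.exists_pow_eq hn h
    exact I.inj f hf ⟨g', hg'⟩

/-- **the Kummer isomorphism over `ℚ̄`** -/
theorem exists_kappaQ {n : ℕ} (hn : 0 < n) (I : KInputs N e n) :
    ∃ κ : Pic0.torsion Qb (FBar Qb N) n ≃+ Additive (charY N n),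
      ∀ x : Pic0.torsion Qb (FBar Qb N) n,
        K1.PicRel Qb n (relQ N e n) (x : Pic0 Qb (FBar Qb N))
          ((Additive.toMul (κ x) : charY N n) : CharGrp N) := by
  obtain ⟨g, hF, -⟩ := Gin0.exists_isCurveOfGenus_FBar N
  haveI := hF.hasPrincipalDivisors
  refine K1.exists_kummerEquiv (K1.const_of_ord_eq_zero hF) (kummerRel_relQ hn I) hn
    (charY N n) ?_ ?_
  · intro f χ hf hdvd hR
    exact ⟨fun γ => K1.IsKum.pow_eq_one hR γ,
      I.par _ χ (ΦFF_ne_zero N e hf) (dvd_ord_ΦFF hdvd) hR⟩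
  · intro χ hχ
    obtain ⟨f', hf', hdvd', hK⟩ := I.surjC χ hχ
    obtain ⟨f₀, hf₀, hdvd₀, u, hu, hfu⟩ := I.surjD f' hf' hdvd'
    refine ⟨f₀, hf₀, hdvd₀, ?_⟩
    show K1.IsKum (Gamma0 N) n (ΦFF N e f₀) χ
    rw [← hfu]
    have h1 : χ * (1 : CharGrp N) = χ := by
      ext γ
      simp
    have := hK.mul (K1.isKum_pow (Γ := Gamma0 N) (n := n) hu)
    rwa [h1] at this

end Fermat.Agent.S29lib.D
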