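/-
S29lib / D / AsmCoord (helper2, brick B4).
Coordinates for the Kummer isomorphism over `ℚ̄`:
`J₀(N)(ℚ̄)[n] ≃+ (ℤ/n)^r`, its characterisation, and the compatibility in `n`.
-/
import Mathlib
import Fermat.Agent.S29lib.D.AsmKummer
import Fermat.Agent.S29lib.K3.Count
import Fermat.Agent.S29lib.K3.ExpChar
import Fermat.Agent.S29lib.Interface.Basic

set_option autoImplicit false
set_option linter.unusedSectionVars false

noncomputable section

namespace Fermat.Agent.S29lib.D

open Fermat.Agent.ProgramR Fermat.Agent.ProgramR.BarField Fermat.Agent.S18lib AlgebraicCurve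
open Fermat.Agent.S16lib.LG CongruenceSubgroup ModularCurve
open scoped MatrixGroups

attribute [local instance] Genus.cosetFintype

/-- `ℚ̄` -/
local notation "Qb" => AlgebraicClosure ℚ

variable (N : ℕ) [NeZero N] (e : Qb →+* ℂ)

/-! ### characters of exponent `n` and homomorphisms to `ℤ/n` -/

section CharY

variable (n : ℕ) [NeZero n]

lemma expChar_mem_charY (ψ : ↥(K3.Hom0 N (ZMod n))) :
    K3.expChar n (ψ : Additive ↥(Gamma0 N) →+ ZMod n) ∈ charY N n :=
  ⟨fun γ => K3.expChar_pow n _ γ,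
    (K3.expChar_kills_iff n _ (fun γ : ↥(Gamma0 N) => IsParTor (γ : SL(2, ℤ)))).2 ψ.2⟩

/-- `ψ ↦ exp(2πi ψ/n)`, with values in `Y_n` -/
def charYFun (ψ : ↥(K3.Hom0 N (ZMod n))) : charY N n :=
  ⟨K3.expChar n ψ.1, expChar_mem_charY N n ψ⟩

lemma coe_charYFun (ψ : ↥(K3.Hom0 N (ZMod n))) :
    ((charYFun N n ψ : charY N n) : CharGrp N) = K3.expChar n ψ.1 := rfl

lemma charYFun_add (ψ ψ' : ↥(K3.Hom0 N (ZMod n))) :
    charYFun N n (ψ + ψ') = charYFun N n ψ * charYFun N n ψ' := by
  apply Subtype.ext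
  rw [Subgroup.coe_mul, coe_charYFun, coe_charYFun, coe_charYFun, AddSubgroup.coe_add]
  exact K3.expChar_add n ψ.1 ψ'.1

lemma charYFun_injective : Function.Injective (charYFun N n) := by
  intro ψ ψ' h
  have h1 : K3.expChar n ψ.1 = K3.expChar n ψ'.1 := by
    rw [← coe_charYFun, ← coe_charYFun, h]
  exact Subtype.ext (K3.expChar_injective n h1)

lemma charYFun_surjective : Function.Surjective (charYFun N n) := by
  intro y
  obtain ⟨ψ, hψ⟩ := K3.exists_expChar_eq n (y : CharGrp N) y.2.1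
  have hmem : ψ ∈ K3.Hom0 N (ZMod n) := by
    have h2 := y.2.2
    rw [← hψ] at h2
    exact (K3.expChar_kills_iff n ψ (fun γ : ↥(Gamma0 N) => IsParTor (γ : SL(2, ℤ)))).1 h2
  exact ⟨⟨ψ, hmem⟩, Subtype.ext hψ⟩

/-- `ψ ↦ exp(2πi ψ/n)` as an isomorphism `Hom⁰(Γ₀(N), ℤ/n) ≃+ Y_n`. -/
def charYEquiv : ↥(K3.Hom0 N (ZMod n)) ≃+ Additive (charY N n) where
  toFun ψ := Additive.ofMul (charYFun N n ψ)
  invFun y := (Equiv.ofBijective (charYFun N n)
    ⟨charYFun_injective N n, charYFun_surjective N n⟩).symm (Additive.toMul y)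
  left_inv ψ := by
    show (Equiv.ofBijective (charYFun N n) _).symm (charYFun N n ψ) = ψ
    exact (Equiv.ofBijective (charYFun N n) _).symm_apply_apply ψ
  right_inv y := by
    show Additive.ofMul (charYFun N n ((Equiv.ofBijective (charYFun N n) _).symm
      (Additive.toMul y))) = y
    rw [← Equiv.ofBijective_apply (charYFun N n)
      ⟨charYFun_injective N n, charYFun_surjective N n⟩, Equiv.apply_symm_apply]
    rfl
  map_add' ψ ψ' := by
    show Additive.ofMul (charYFun N n (ψ + ψ')) = _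
    rw [charYFun_add]
    rfl

lemma charYEquiv_apply (ψ : ↥(K3.Hom0 N (ZMod n))) :
    ((Additive.toMul (charYEquiv N n ψ) : charY N n) : CharGrp N) = K3.expChar n ψ.1 := rfl

/-- the character attached to a coordinate vector -/
def chiOf (c : Fin (K3.rank N) → ZMod n) : CharGrp N :=
  K3.expChar n ((K3.coordEquivFin N n c : ↥(K3.Hom0 N (ZMod n))) :
    Additive ↥(Gamma0 N) →+ ZMod n)

lemma chiOf_injective : Function.Injective (chiOf N n) := by
  intro c c' h
  have h1 := K3.expChar_injective n h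
  exact (K3.coordEquivFin N n).injective (Subtype.ext h1)

end CharY

/-! ### torsion: the two languages -/

/-- `Tors N n` (interface) is the prelude's `Pic0.torsion`. -/
def torsEquiv (n : ℕ) : Tors N n ≃+ Pic0.torsion Qb (FBar Qb N) n where
  toFun x := ⟨x.1, x.2⟩
  invFun x := ⟨x.1, x.2⟩
  left_inv _ := rfl
  right_inv _ := rfl
  map_add' _ _ := rfl

@[simp] lemma coe_torsEquiv (n : ℕ) (x : Tors N n) :
    ((torsEquiv N n x : Pic0.torsion Qb (FBar Qb N) n) : Pic0 Qb (FBar Qb N)) = (x : JZero N) :=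
  rfl

/-! ### the coordinate isomorphism -/

section Kappa

variable {N e}
variable {n : ℕ} [NeZero n] (I : KInputs N e n)

/-- the Kummer isomorphism over `ℚ̄` (a choice) -/
def kappaQ : Pic0.torsion Qb (FBar Qb N) n ≃+ Additive (charY N n) :=
  (exists_kappaQ (NeZero.pos n) I).choose

lemma kappaQ_spec (x : Pic0.torsion Qb (FBar Qb N) n) :
    K1.PicRel Qb n (relQ N e n) (x : Pic0 Qb (FBar Qb N))
      ((Additive.toMul (kappaQ I x) : charY N n) : CharGrp N) :=
  (exists_kappaQ (NeZero.pos n) I).choose_spec x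

/-- **the Kummer comparison in coordinates**: `J₀(N)(ℚ̄)[n] ≃+ (ℤ/n)^r`. -/
def kappa : Tors N n ≃+ (Fin (K3.rank N) → ZMod n) :=
  (torsEquiv N n).trans ((kappaQ I).trans ((charYEquiv N n).symm.trans
    (K3.coordEquivFin N n).symm))

lemma kappaQ_eq (x : Tors N n) :
    kappaQ I (torsEquiv N n x) = charYEquiv N n (K3.coordEquivFin N n (kappa I x)) := by
  simp [kappa]

/-- **specification** of `kappa`. -/
theorem kappa_spec (x : Tors N n) :
    K1.PicRel Qb n (relQ N e n) (x : JZero N) (chiOf N n (kappa I x)) := by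
  have h := kappaQ_spec I (torsEquiv N n x)
  rw [kappaQ_eq, charYEquiv_apply] at h
  exact h

/-- **uniqueness**: `kappa` is determined by its specification. -/
theorem kappa_eq_of_picRel (x : Tors N n) (c : Fin (K3.rank N) → ZMod n)
    (h : K1.PicRel Qb n (relQ N e n) (x : JZero N) (chiOf N n c)) : kappa I x = c := by
  obtain ⟨g, hF, -⟩ := Gin0.exists_isCurveOfGenus_FBar N
  apply chiOf_injective N n
  exact K1.PicRel.unique (K1.const_of_ord_eq_zero hF) (kummerRel_relQ (NeZero.pos n) I)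
    (NeZero.pos n) (kappa_spec I x) h

end Kappa

/-! ### compatibility in `n` -/

section Compat

variable {N e}

/-- the relation at exponent `n * d` refines to the relation at exponent `n`. -/
lemma relQ_of_mul {n d : ℕ} (f : FBar Qb N) (χ : CharGrp N) (h : relQ N e (n * d) f χ) :
    relQ N e n f (χ ^ d) :=
  K1.IsKum.of_mul h

/-- **compatibility**: `κ_n (d • x) = κ_{n d}(x) mod n`. -/
theorem kappa_compat {n d m : ℕ} [NeZero n] [NeZero m] (hm : m = n * d)
    (In : KInputs N e n) (Im : KInputs N e m) (x : Tors N m) (y : Tors N n)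
    (hy : (y : JZero N) = (d : ℤ) • (x : JZero N)) :
    kappa In y = fun i => ZMod.castHom (Dvd.intro d hm.symm) (ZMod n) (kappa Im x i) := by
  subst hm
  apply kappa_eq_of_picRel
  rw [hy]
  have h1 := K1.PicRel.of_mul (K := Qb) (R := relQ N e n) (R' := relQ N e (n * d))
    (fun f χ h => relQ_of_mul f χ h) (kappa_spec Im x)
  have h2 : chiOf N (n * d) (kappa Im x) ^ d =
      chiOf N n (fun i => ZMod.castHom (Dvd.intro d rfl) (ZMod n) (kappa Im x i)) := by
    ext γ
    have h3 := K3.expChar_pow_eq (Γ := ↥(Gamma0 N)) n (m := n * d) d rfl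
      ((K3.coordEquivFin N (n * d) (kappa Im x) : ↥(K3.Hom0 N (ZMod (n * d)))) :
        Additive ↥(Gamma0 N) →+ ZMod (n * d)) γ
    rw [MonoidHom.pow_apply]
    unfold chiOf
    rw [h3, K3.coordEquivFin_castHom N n (Dvd.intro d rfl)]
    rfl
  rw [h2] at h1
  exact h1

end Compat

end Fermat.Agent.S29lib.D
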