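/-
S29lib / D / AsmHecke (helper2, brick B4).
The lattice side of the Hecke compatibility: the combinatorial Hecke operator on
`Hom⁰(Γ₀(N), ℤ/n)` in the coordinates `coordEquivFin` is the reduction of the integer matrix
`H.tMat b ℓ`, `b` the chosen basis of `V_ℤ` indexed by `Fin r`; and the Hecke compatibility of
`kappa` from the Hecke input (helper1's H2).
-/
import Mathlib
import Fermat.Agent.S29lib.D.AsmCoord
import Fermat.Agent.S29lib.H.CombVZ
import Fermat.Agent.S29lib.H.TJ

set_option autoImplicit false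
set_option linter.unusedSectionVars false

noncomputable section

namespace Fermat.Agent.S29lib.D

open Fermat.Agent.ProgramR Fermat.Agent.ProgramR.BarField Fermat.Agent.S18lib AlgebraicCurve
open Fermat.Agent.S16lib.LG CongruenceSubgroup ModularCurve
open scoped MatrixGroups

attribute [local instance] Genus.cosetFintype

/-- `ℚ̄` -/
local notation "Qb" => AlgebraicClosure ℚ

variable (N : ℕ) [NeZero N] (e : Qb →+* ℂ)

/-- the chosen basis of `V_ℤ`, indexed by `Fin r` -/
def vzBasis : Module.Basis (Fin (K3.rank N)) ℤ ↥(VZ (Gamma0 N)) :=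
  (vBasis (Gamma0 N)).reindex (K3.finEquiv N)

lemma vzBasis_repr (v : ↥(VZ (Gamma0 N))) (j : K3.VI N) :
    (vzBasis N).repr v (K3.finEquiv N j) = (vBasis (Gamma0 N)).repr v j := by
  rw [vzBasis, Module.Basis.repr_reindex_apply, Equiv.symm_apply_apply]

variable (n : ℕ) [NeZero n]

/-- the reduction mod `n` of a lattice vector, in coordinates -/
lemma redZ_eq_coordEquivFin (v : ↥(VZ (Gamma0 N))) :
    H.redZ N n (v : Additive ↥(Gamma0 N) →+ ℤ) =
      ((K3.coordEquivFin N n (fun i => (((vzBasis N).repr v i : ℤ) : ZMod n)) :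
        ↥(K3.Hom0 N (ZMod n))) : Additive ↥(Gamma0 N) →+ ZMod n) := by
  apply AddMonoidHom.ext
  intro a
  induction a using Additive.rec with
  | ofMul γ =>
    rw [K3.coordEquivFin_apply, K3.coordHom_apply, H.redZ_apply]
    have hsum : v = ∑ i, (vBasis (Gamma0 N)).repr v i • vBasis (Gamma0 N) i :=
      ((vBasis (Gamma0 N)).sum_repr v).symm
    have h1 : (v : Additive ↥(Gamma0 N) →+ ℤ) (Additive.ofMul γ) =
        ∑ i, (vBasis (Gamma0 N)).repr v i *
          ((vBasis (Gamma0 N) i : ↥(VZ (Gamma0 N))) : Additive ↥(Gamma0 N) →+ ℤ)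
            (Additive.ofMul γ) := by
      have h2 := congrArg (fun w : ↥(VZ (Gamma0 N)) =>
        (w : Additive ↥(Gamma0 N) →+ ℤ) (Additive.ofMul γ)) hsum
      simp only [AddSubmonoidClass.coe_finsetSum, Submodule.coe_smul,
        AddMonoidHom.finsetSum_apply, AddMonoidHom.smul_apply, smul_eq_mul] at h2
      exact h2
    rw [h1]
    push_cast
    refine Finset.sum_congr rfl fun i _ => ?_
    rw [vzBasis_repr, K3.basisMod_apply]

/-- every coordinate vector lifts to the lattice -/
lemma exists_lattice_lift (c : Fin (K3.rank N) → ZMod n) :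
    ∃ v : ↥(VZ (Gamma0 N)), (fun i => (((vzBasis N).repr v i : ℤ) : ZMod n)) = c := by
  refine ⟨(vzBasis N).repr.symm (Finsupp.equivFunOnFinite.symm (fun i => ((c i).val : ℤ))), ?_⟩
  funext i
  rw [LinearEquiv.apply_symm_apply]
  simp

/-- **the combinatorial Hecke operator in coordinates** -/
theorem combT_coordEquivFin (ℓ : Nat.Primes) (c : Fin (K3.rank N) → ZMod n) :
    H.combT N ℓ (ZMod n) ((K3.coordEquivFin N n c : ↥(K3.Hom0 N (ZMod n))) :
        Additive ↥(Gamma0 N) →+ ZMod n) =
      ((K3.coordEquivFin N n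
        (((H.tMat (vzBasis N) ℓ).map (Int.cast : ℤ → ZMod n)).mulVec c) :
          ↥(K3.Hom0 N (ZMod n))) : Additive ↥(Gamma0 N) →+ ZMod n) := by
  obtain ⟨v, rfl⟩ := exists_lattice_lift N n c
  rw [← redZ_eq_coordEquivFin, H.combT_redZ, ← H.coe_combTZ, redZ_eq_coordEquivFin]
  congr 2
  funext i
  rw [H.repr_combTZ]
  simp only [Matrix.mulVec, dotProduct, Matrix.map_apply]
  push_cast
  rfl

variable {N e n}

/-- **the Hecke input** (helper1's H2) at exponent `n`: the Kummer character of `T_ℓ x` is the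
combinatorial Hecke operator applied to the Kummer character of `x`. -/
def HeckeInput (N : ℕ) [NeZero N] (e : Qb →+* ℂ) (n : ℕ) [NeZero n] : Prop :=
  ∀ (ℓ : Nat.Primes) (x : JZero N) (ψ : Additive ↥(Gamma0 N) →+ ZMod n),
    ψ ∈ K3.Hom0 N (ZMod n) →
    K1.PicRel Qb n (relQ N e n) x (K3.expChar n ψ) →
    K1.PicRel Qb n (relQ N e n) (H.TJ N ℓ x) (K3.expChar n (H.combT N ℓ (ZMod n) ψ))

/-- **Hecke compatibility of the Kummer comparison.** -/
theorem kappa_hecke (I : KInputs N e n) (hH : HeckeInput N e n) (ℓ : Nat.Primes)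
    (x : Tors N n) :
    kappa I ⟨H.TJ N ℓ x, map_mem_Tors (H.TJ N ℓ) x.2⟩ =
      ((H.tMat (vzBasis N) ℓ).map (Int.cast : ℤ → ZMod n)).mulVec (kappa I x) := by
  apply kappa_eq_of_picRel
  have h1 := hH ℓ (x : JZero N) _ (K3.coordEquivFin N n (kappa I x)).2 (kappa_spec I x)
  rw [combT_coordEquivFin] at h1
  exact h1

end Fermat.Agent.S29lib.D
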