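/-
S29lib / D / DescentMem  (helper3, block D).

**Descent of membership** for the formal function fields `laurentBaseChange L F₀ ⊆ L((q))`:
for a field embedding `e : K →+* K'`, a Laurent series `y ∈ K((q))` whose coefficientwise image
lies in `K' · F₀` already lies in `K · F₀`.

Proof: write `coeffMap e y = r / s` with `r, s` finite sums of `c · coeffMap e g`
(`c ∈ K'`, `g ∈ K · F₀`); apply coefficientwise a `K`-linear functional `μ : K' → K` not killing
some coefficient of `s`; this gives `y · Λ s = Λ r` with `Λ s ≠ 0`, `Λ r, Λ s ∈ K · F₀`.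
-/
import Mathlib
import Fermat.Prelude.Def_ModularCurve_LaurentCoeff

set_option autoImplicit false
set_option linter.unusedSectionVars false
set_option linter.style.haveILetI false

noncomputable section

namespace Fermat.Agent.S29lib.D

open ModularCurve HahnSeries

variable {K K' : Type*} [Field K] [Field K'] [Algebra ℚ K] [Algebra ℚ K'] (e : K →+* K')
  (F₀ : IntermediateField ℚ (LaurentSeries ℚ))

lemma coeffMap_algebraMap' (c : K) :
    coeffMap e (algebraMap K (LaurentSeries K) c) = algebraMap K' (LaurentSeries K') (e c) := by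
  rw [algebraMap_laurentSeries_eq_single, algebraMap_laurentSeries_eq_single, coeffMap_single]

lemma coeffMap_coeffEmb' (x : LaurentSeries ℚ) :
    coeffMap e (coeffEmb K x) = coeffEmb K' x := by
  rw [coeffEmb, coeffMap_coeffMap]
  exact coeffMap_congr (Subsingleton.elim _ _) x

lemma coeffMap_injective' : Function.Injective (coeffMap e) := by
  intro x y h
  ext k
  have := congrArg (fun z => z.coeff k) h
  simp only [coeffMap_coeff] at this
  exact e.injective this

/-- `coeffMap e` maps `K · F₀` into `K' · F₀`. -/
theorem coeffMap_mem_laurentBaseChange' {y : LaurentSeries K}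
    (hy : y ∈ laurentBaseChange K F₀) : coeffMap e y ∈ laurentBaseChange K' F₀ := by
  rw [mem_laurentBaseChange_iff] at hy
  induction hy using Subfield.closure_induction with
  | mem y hy =>
      rcases hy with ⟨a, rfl⟩ | ⟨z, hz, rfl⟩
      · rw [coeffMap_algebraMap']
        exact (laurentBaseChange K' F₀).algebraMap_mem _
      · rw [coeffMap_coeffEmb']
        exact coeffEmb_mem_laurentBaseChange K' hz
  | one => simp
  | add x y _ _ hx hy => simpa using add_mem hx hy
  | neg x _ hx => simpa using neg_mem hx
  | inv x _ hx => simpa using inv_mem hx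
  | mul x y _ _ hx hy => simpa using mul_mem hx hy

/-- the products `c · coeffMap e g`, `c ∈ K'`, `g ∈ K · F₀`. -/
def prodMonoid : Submonoid (LaurentSeries K') where
  carrier := {Z | ∃ c : K', ∃ g ∈ laurentBaseChange K F₀, Z = C c * coeffMap e g}
  one_mem' := ⟨1, 1, one_mem _, by simp⟩
  mul_mem' := by
    rintro _ _ ⟨c, g, hg, rfl⟩ ⟨c', g', hg', rfl⟩
    refine ⟨c * c', g * g', mul_mem hg hg', ?_⟩
    rw [map_mul, map_mul]
    ring

/-- the subalgebra of finite sums of products `c · coeffMap e g`. -/
def prodAlgebra : Subalgebra K' (LaurentSeries K') where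
  toSubsemiring := (prodMonoid e F₀).subsemiringClosure
  algebraMap_mem' := fun c => by
    rw [Subsemiring.mem_carrier, Submonoid.subsemiringClosure_mem]
    refine AddSubmonoid.subset_closure ⟨c, 1, one_mem _, ?_⟩
    rw [map_one, mul_one, algebraMap_laurentSeries_eq_single]
    rfl

lemma mem_prodAlgebra_iff {Z : LaurentSeries K'} :
    Z ∈ prodAlgebra e F₀ ↔ Z ∈ AddSubmonoid.closure ((prodMonoid e F₀ : Set (LaurentSeries K'))) :=
  Submonoid.subsemiringClosure_mem _

lemma laurentBaseChange_le_adjoin :
    laurentBaseChange K' F₀ ≤ IntermediateField.adjoin K'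
      (coeffMap e '' (laurentBaseChange K F₀ : Set (LaurentSeries K))) := by
  rw [laurentBaseChange]
  apply IntermediateField.adjoin.mono
  rintro _ ⟨x, hx, rfl⟩
  exact ⟨coeffEmb K x, coeffEmb_mem_laurentBaseChange K hx, coeffMap_coeffEmb' e x⟩

lemma adjoin_le_prodAlgebra :
    Algebra.adjoin K' (coeffMap e '' (laurentBaseChange K F₀ : Set (LaurentSeries K)))
      ≤ prodAlgebra e F₀ := by
  apply Algebra.adjoin_le
  rintro _ ⟨g, hg, rfl⟩
  rw [SetLike.mem_coe, mem_prodAlgebra_iff]
  exact AddSubmonoid.subset_closure ⟨1, g, hg, by simp⟩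

/-- coefficientwise application of an additive map. -/
def coeffAdd (μ : K' →+ K) : LaurentSeries K' →+ LaurentSeries K where
  toFun Z := Z.map μ
  map_zero' := HahnSeries.map_zero (μ : ZeroHom K' K)
  map_add' _ _ := HahnSeries.map_add μ

@[simp] lemma coeffAdd_coeff (μ : K' →+ K) (Z : LaurentSeries K') (k : ℤ) :
    (coeffAdd μ Z).coeff k = μ (Z.coeff k) := rfl

/-- on a product `c · coeffMap e g`, a semilinear functional acts through the constant. -/
lemma coeffAdd_C_mul_coeffMap (μ : K' →+ K) (hμ : ∀ (c : K') (a : K), μ (c * e a) = μ c * a)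
    (c : K') (g : LaurentSeries K) :
    coeffAdd μ (C c * coeffMap e g) = C (μ c) * g := by
  ext k
  rw [coeffAdd_coeff, C_mul_eq_smul, C_mul_eq_smul, HahnSeries.coeff_smul, HahnSeries.coeff_smul,
    coeffMap_coeff, smul_eq_mul, smul_eq_mul, hμ]

/-- **descent of membership**. -/
theorem mem_laurentBaseChange_of_coeffMap_mem {y : LaurentSeries K}
    (hy : coeffMap e y ∈ laurentBaseChange K' F₀) : y ∈ laurentBaseChange K F₀ := by
  classical
  have h1 := laurentBaseChange_le_adjoin e F₀ hy
  rw [IntermediateField.mem_adjoin_iff_div] at h1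
  obtain ⟨r, hr, s, hs, hrs⟩ := h1
  replace hr := adjoin_le_prodAlgebra e F₀ hr
  replace hs := adjoin_le_prodAlgebra e F₀ hs
  by_cases hs0 : s = 0
  · rw [hs0, div_zero] at hrs
    have : y = 0 := coeffMap_injective' e (by rw [hrs, map_zero])
    rw [this]
    exact zero_mem _
  -- a coefficient of `s` which does not vanish
  obtain ⟨k, hk⟩ : ∃ k, s.coeff k ≠ 0 := by
    by_contra hcon
    push Not at hcon
    exact hs0 (HahnSeries.ext (funext hcon))
  -- a `K`-linear functional on `K'` not vanishing there
  letI : Algebra K K' := e.toAlgebra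
  obtain ⟨φ, hφ⟩ : ∃ φ : Module.Dual K K', φ (s.coeff k) ≠ 0 := by
    by_contra hcon
    push Not at hcon
    exact hk ((Module.forall_dual_apply_eq_zero_iff K (s.coeff k)).1 hcon)
  let μ : K' →+ K := φ.toAddMonoidHom
  have hμ : ∀ (c : K') (a : K), μ (c * e a) = μ c * a := by
    intro c a
    have h2 : c * e a = a • c := by rw [Algebra.smul_def, mul_comm]; rfl
    show φ (c * e a) = φ c * a
    rw [h2, map_smul, smul_eq_mul, mul_comm]
  -- the key property, by induction on finite sums
  have key : ∀ Z : LaurentSeries K', Z ∈ prodAlgebra e F₀ →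
      coeffAdd μ Z ∈ laurentBaseChange K F₀ ∧
        coeffAdd μ (coeffMap e y * Z) = y * coeffAdd μ Z := by
    intro Z hZ
    rw [mem_prodAlgebra_iff] at hZ
    induction hZ using AddSubmonoid.closure_induction with
    | mem Z hZ =>
      obtain ⟨c, g, hg, rfl⟩ := hZ
      constructor
      · rw [coeffAdd_C_mul_coeffMap e μ hμ]
        refine mul_mem ?_ hg
        have : (C (μ c) : LaurentSeries K) = algebraMap K (LaurentSeries K) (μ c) := by
          rw [algebraMap_laurentSeries_eq_single]; rfl
        rw [this]
        exact (laurentBaseChange K F₀).algebraMap_mem _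
      · have : coeffMap e y * (C c * coeffMap e g) = C c * coeffMap e (y * g) := by
          rw [map_mul]; ring
        rw [this, coeffAdd_C_mul_coeffMap e μ hμ, coeffAdd_C_mul_coeffMap e μ hμ]
        ring
    | zero => simp
    | add Z₁ Z₂ _ _ h₁ h₂ =>
      constructor
      · rw [map_add]; exact add_mem h₁.1 h₂.1
      · rw [mul_add, map_add, map_add, h₁.2, h₂.2, mul_add]
  have hYs : coeffMap e y * s = r := by
    rw [hrs]; field_simp
  have h3 := (key s hs).2
  rw [hYs] at h3
  have hΛs : coeffAdd μ s ≠ 0 := by
    intro h0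
    apply hφ
    have h4 := congrArg (fun z => z.coeff k) h0
    simp only [coeffAdd_coeff, HahnSeries.coeff_zero] at h4
    exact h4
  have : y = coeffAdd μ r / coeffAdd μ s := by
    rw [h3]; field_simp
  rw [this]
  exact div_mem (key r hr).1 (key s hs).1

end Fermat.Agent.S29lib.D
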