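/-
S29lib / D / FixedField  (helper3, block D).

Let `K / k` be an extension of fields with `K` algebraically closed of characteristic zero.
An element of `K` fixed by a subgroup of finite index of `Aut (K / k)` is algebraic over `k`
(so lies in `k` when `k` is algebraically closed).

Proof: a transcendental `x` is moved to `x + n` by suitable `τ_n ∈ Aut (K / k)` (extend the shift
of a transcendence basis containing `x`, `ProgramR.Descent.exists_ringEquiv_extending`); two of
the `τ_n` lie in the same coset of the subgroup.
-/
import Mathlib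
import Fermat.Agent.ProgramR.Descent.AutC

set_option autoImplicit false

namespace Fermat.Agent.S29lib.D

open MvPolynomial Fermat.Agent.ProgramR.Descent

variable {k K : Type*} [Field k] [Field K] [IsAlgClosed K] [Algebra k K]

/-- a transcendental element can be shifted by any constant by an automorphism over `k`. -/
theorem exists_algEquiv_shift {x : K} (hx : Transcendental k x) (c : k) :
    ∃ τ : K ≃ₐ[k] K, τ x = x + algebraMap k K c := by
  classical
  have hind : AlgebraicIndepOn k id ({x} : Set K) := by
    have : AlgebraicIndependent k (fun i : ({x} : Set K) => (i : K)) := by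
      rw [algebraicIndependent_singleton_iff ⟨x, rfl⟩]
      exact hx
    exact this
  obtain ⟨s, hxs, hs⟩ := exists_isTranscendenceBasis_superset hind
  have hxmem : x ∈ s := hxs rfl
  obtain ⟨τ, hτ⟩ := exists_ringEquiv_extending hs (shiftEquiv (k := k) ⟨x, hxmem⟩ c)
  have hcomm : ∀ a : k, τ (algebraMap k K a) = algebraMap k K a := by
    intro a
    have h := hτ (C a)
    have h2 : shiftEquiv (k := k) (⟨x, hxmem⟩ : s) c (C a) = C a := by
      show shiftHom _ _ _ = _
      simp [shiftHom]
    rw [h2, aeval_C] at h
    exact h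
  refine ⟨AlgEquiv.ofRingEquiv (f := τ) hcomm, ?_⟩
  have h := hτ (X ⟨x, hxmem⟩)
  rw [aeval_X] at h
  have h2 : shiftEquiv (k := k) (⟨x, hxmem⟩ : s) c (X ⟨x, hxmem⟩) = X ⟨x, hxmem⟩ + C c := by
    show shiftHom _ _ _ = _
    rw [shiftHom_X, if_pos rfl]
  rw [h2, map_add, aeval_X, aeval_C] at h
  exact h

/-- **the fixed field of a subgroup of finite index consists of algebraic elements**. -/
theorem isAlgebraic_of_fixed_finiteIndex [CharZero K] (H : Subgroup (K ≃ₐ[k] K))
    [H.FiniteIndex] {x : K} (hx : ∀ τ ∈ H, τ x = x) : IsAlgebraic k x := by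
  by_contra hx'
  have hx'' : Transcendental k x := hx'
  choose τ hτ using fun n : ℕ => exists_algEquiv_shift hx'' (n : k)
  haveI : Finite ((K ≃ₐ[k] K) ⧸ H) := Subgroup.finite_quotient_of_finiteIndex
  obtain ⟨n, m, hnm, h⟩ := Finite.exists_ne_map_eq_of_infinite
    (fun n : ℕ => (QuotientGroup.mk (τ n) : (K ≃ₐ[k] K) ⧸ H))
  rw [QuotientGroup.eq] at h
  have h1 := hx _ h
  rw [AlgEquiv.mul_apply, hτ m] at h1
  have h2 : x + algebraMap k K (m : k) = τ n x := by
    have := congrArg (τ n) h1
    rwa [← AlgEquiv.mul_apply, mul_inv_cancel, AlgEquiv.one_apply] at this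
  rw [hτ n] at h2
  have h3 : ((m : ℕ) : K) = (n : K) := by
    have := add_left_cancel h2
    simpa using this
  exact hnm (Nat.cast_injective h3).symm

/-- if moreover `k` is algebraically closed, the element lies in `k`. -/
theorem mem_range_of_fixed_finiteIndex [CharZero K] [IsAlgClosed k] (H : Subgroup (K ≃ₐ[k] K))
    [H.FiniteIndex] {x : K} (hx : ∀ τ ∈ H, τ x = x) : x ∈ Set.range (algebraMap k K) := by
  have halg := isAlgebraic_of_fixed_finiteIndex H hx
  have hint : IsIntegral k x := halg.isIntegral
  have hdeg := IsAlgClosed.degree_eq_one_of_irreducible k (minpoly.irreducible hint)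
  exact minpoly.mem_range_of_degree_eq_one k x hdeg

end Fermat.Agent.S29lib.D
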