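/-
S29lib / D / Fan  (helper3, block D).

The concrete base change `ΦFF N e : FBar ℚ̄ N →+* Fan N` from the formal modular function field
over `ℚ̄` to the analytic function field `Fan N = Frac (WH0 Γ₀(N))` over `ℂ`, and the semilinear
action of `Aut (ℂ / ℚ̄)` on `Fan N` (coefficientwise on `q`-expansions):

* `rhoFan N : (ℂ ≃ₐ[ℚ̄] ℂ) →* SemilinearAut ℂ (Fan N)`, fixing `ΦFF`;
* `ΦFF_const`: `ΦFF u` constant implies `u` constant;
* `mem_range_ΦFF_of_fixed`: an element of `Fan N` fixed by a subgroup of finite index of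
  `Aut (ℂ / ℚ̄)` lies in the image of `ΦFF`.
`ℂ` is a `ℚ̄`-algebra through an arbitrary `[Algebra ℚ̄ ℂ]`.
-/
import Mathlib
import Fermat.Prelude.Def_AlgebraicCurve_BaseChangeGalois
import Fermat.Agent.ProgramR.Descent.AutFF
import Fermat.Agent.ProgramR.Descent.TauF
import Fermat.Agent.ProgramR.BarField.InftyBar
import Fermat.Agent.S29lib.D.DescentMem
import Fermat.Agent.S29lib.D.FixedField

set_option autoImplicit false
set_option linter.unusedSectionVars false

noncomputable section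

namespace Fermat.Agent.S29lib.D

open AlgebraicCurve CongruenceSubgroup ModularCurve
open Fermat.Agent.ProgramR Fermat.Agent.ProgramR.Alg Fermat.Agent.ProgramR.BarField
  Fermat.Agent.ProgramR.Descent

attribute [local instance] Genus.cosetFintype

/-- `ℚ̄` -/
local notation "Qb" => AlgebraicClosure ℚ

variable (N : ℕ) [NeZero N]

/-- the analytic function field of `X₀(N)` over `ℂ`, as a prelude curve. -/
abbrev Fan : Type := FF ℂ ↥(WH0 (Gamma0 N))

/-- constants of `Fan N`. -/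
lemma algebraMap_Fan (c : ℂ) :
    algebraMap ℂ (Fan N) c =
      algebraMap ↥(WH0 (Gamma0 N)) (Fan N) (algebraMap ℂ ↥(WH0 (Gamma0 N)) c) :=
  IsScalarTower.algebraMap_apply ℂ ↥(WH0 (Gamma0 N)) (Fan N) c

lemma qExpFF_algebraMap_Fan (c : ℂ) :
    qExpFF N (algebraMap ℂ (Fan N) c) = HahnSeries.C c := by
  rw [algebraMap_Fan]
  exact qExpFF_const N c

/-- the automorphism of `Fan N` attached to a field automorphism of `ℂ`. -/
def autFan (τ : ℂ ≃+* ℂ) : Fan N ≃+* Fan N := autFF N τ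

lemma qExpFF_autFan (τ : ℂ ≃+* ℂ) (h : Fan N) :
    qExpFF N (autFan N τ h) = coeffMap (τ : ℂ →+* ℂ) (qExpFF N h) :=
  qExpFF_autFF N τ h

lemma autFan_algebraMap (τ : ℂ ≃+* ℂ) (c : ℂ) :
    autFan N τ (algebraMap ℂ (Fan N) c) = algebraMap ℂ (Fan N) (τ c) := by
  rw [algebraMap_Fan, algebraMap_Fan]
  exact autFF_algebraMap_const N τ c

lemma autFan_one (h : Fan N) : autFan N 1 h = h := by
  apply qExpFF_injective N
  rw [qExpFF_autFan]
  ext k
  simp

lemma autFan_mul (τ₁ τ₂ : ℂ ≃+* ℂ) (h : Fan N) :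
    autFan N (τ₁ * τ₂) h = autFan N τ₁ (autFan N τ₂ h) := by
  apply qExpFF_injective N
  rw [qExpFF_autFan, qExpFF_autFan, qExpFF_autFan]
  ext k
  simp

/-- the semilinear automorphism of `Fan N / ℂ` attached to a field automorphism of `ℂ`. -/
def semiFan : (ℂ ≃+* ℂ) →* SemilinearAut ℂ (Fan N) where
  toFun τ := ⟨(autFan N τ, τ), fun a => autFan_algebraMap N τ a⟩
  map_one' := by
    apply Subtype.ext
    refine Prod.ext ?_ rfl
    exact RingEquiv.ext fun h => autFan_one N h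
  map_mul' τ₁ τ₂ := by
    apply Subtype.ext
    refine Prod.ext ?_ rfl
    exact RingEquiv.ext fun h => autFan_mul N τ₁ τ₂ h

@[simp] lemma semiFan_smul (τ : ℂ ≃+* ℂ) (h : Fan N) : semiFan N τ • h = autFan N τ h := rfl

@[simp] lemma baseAut_semiFan (τ : ℂ ≃+* ℂ) (c : ℂ) :
    SemilinearAut.baseAut (semiFan N τ) c = τ c := rfl

/-- the `q`-expansion on `Fan N` (as a ring homomorphism on the type `Fan N`). -/
def qF : Fan N →+* LaurentSeries ℂ := qExpF N

lemma qF_eq (h : Fan N) : qF N h = qExpFF N h := qExpF_eq_qExpFF N h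

lemma qF_injective : Function.Injective (qF N) := (qF N).injective

lemma qF_algebraMap (c : ℂ) : qF N (algebraMap ℂ (Fan N) c) = HahnSeries.C c := by
  rw [qF_eq, qExpFF_algebraMap_Fan]

lemma qF_autFan (τ : ℂ ≃+* ℂ) (h : Fan N) :
    qF N (autFan N τ h) = coeffMap (τ : ℂ →+* ℂ) (qF N h) := by
  rw [qF_eq, qF_eq, qExpFF_autFan]

section Algebra

variable [Algebra Qb ℂ]

/-- the base change map. -/
def ΦF : FBar Qb N →+* Fan N := ΦFF N (algebraMap Qb ℂ)

lemma qExpFF_ΦF (x : FBar Qb N) :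
    qExpFF N (ΦF N x) = coeffMap (algebraMap Qb ℂ) (x : LaurentSeries Qb) :=
  qExpFF_toFunField N (algebraMap Qb ℂ) x

lemma qF_ΦF (x : FBar Qb N) :
    qF N (ΦF N x) = coeffMap (algebraMap Qb ℂ) (x : LaurentSeries Qb) := by
  rw [qF_eq, qExpFF_ΦF]

lemma ΦF_algebraMap (a : Qb) :
    ΦF N (algebraMap Qb (FBar Qb N) a) = algebraMap ℂ (Fan N) (algebraMap Qb ℂ a) := by
  rw [algebraMap_Fan]
  exact ΦBar_algebraMap N (algebraMap Qb ℂ) a

/-- `ΦF u` constant implies `u` constant. -/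
theorem ΦF_const (u : FBar Qb N) (hu : ∃ c : ℂ, ΦF N u = algebraMap ℂ (Fan N) c) :
    ∃ c₀ : Qb, u = algebraMap Qb (FBar Qb N) c₀ := by
  obtain ⟨c, hc⟩ := hu
  have h1 : coeffMap (algebraMap Qb ℂ) (u : LaurentSeries Qb) = HahnSeries.C c := by
    rw [← qExpFF_ΦF, hc, qExpFF_algebraMap_Fan]
  refine ⟨(u : LaurentSeries Qb).coeff 0, ?_⟩
  apply Subtype.ext
  show (u : LaurentSeries Qb) = algebraMap Qb (LaurentSeries Qb) ((u : LaurentSeries Qb).coeff 0)
  rw [algebraMap_laurentSeries_eq_single]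
  ext k
  by_cases hk : k = 0
  · subst hk
    simp
  · rw [HahnSeries.coeff_single_of_ne hk]
    have h2 := congrArg (fun z => z.coeff k) h1
    simp only [coeffMap_coeff] at h2
    rw [HahnSeries.C_apply, HahnSeries.coeff_single_of_ne hk] at h2
    exact (map_eq_zero_iff _ (algebraMap Qb ℂ).injective).1 h2

/-- the action of `Aut (ℂ / ℚ̄)` on `Fan N`. -/
def rhoFan : (ℂ ≃ₐ[Qb] ℂ) →* SemilinearAut ℂ (Fan N) :=
  (semiFan N).comp
    { toFun := fun τ => τ.toRingEquiv
      map_one' := rfl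
      map_mul' := fun _ _ => rfl }

@[simp] lemma rhoFan_smul (τ : ℂ ≃ₐ[Qb] ℂ) (h : Fan N) :
    rhoFan N τ • h = autFan N τ.toRingEquiv h := rfl

@[simp] lemma baseAut_rhoFan (τ : ℂ ≃ₐ[Qb] ℂ) (c : ℂ) :
    SemilinearAut.baseAut (rhoFan N τ) c = τ c := rfl

/-- `Aut (ℂ / ℚ̄)` fixes the image of `ΦF`. -/
theorem rhoFan_ΦF (τ : ℂ ≃ₐ[Qb] ℂ) (z : FBar Qb N) : rhoFan N τ • ΦF N z = ΦF N z := by
  rw [rhoFan_smul]
  apply qExpFF_injective N
  rw [qExpFF_autFan, qExpFF_ΦF]
  ext k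
  simp only [coeffMap_coeff]
  exact τ.commutes _

/-- the `q`-expansion of an element of `Fan N` lies in the formal function field over `ℂ`. -/
lemma qExpFF_mem (h : Fan N) :
    qExpFF N h ∈ laurentBaseChange ℂ (modularFunctionFieldFull N) := by
  obtain ⟨x, rfl⟩ := toFunField_id_surjective N h
  rw [qExpFF_toFunField]
  simp only [coeffMap_id]
  exact x.2

/-- **descent**: an element of `Fan N` fixed by a subgroup of finite index of `Aut (ℂ / ℚ̄)` comes
from `FBar ℚ̄ N`. -/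
theorem mem_range_ΦF_of_fixed (H : Subgroup (ℂ ≃ₐ[Qb] ℂ)) (hH : H.FiniteIndex) (h : Fan N)
    (hfix : ∀ σ ∈ H, rhoFan N σ • h = h) : h ∈ Set.range (ΦF N) := by
  classical
  haveI := hH
  -- the coefficients are algebraic
  have hcoeff : ∀ k : ℤ, (qExpFF N h).coeff k ∈ Set.range (algebraMap Qb ℂ) := by
    intro k
    refine mem_range_of_fixed_finiteIndex H fun τ hτ => ?_
    have h1 := congrArg (fun z => (qExpFF N z).coeff k) (hfix τ hτ)
    simp only [rhoFan_smul, qExpFF_autFan, coeffMap_coeff] at h1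
    exact h1
  choose c hc using hcoeff
  have hsupp : Function.support c ⊆ (qExpFF N h).support := by
    intro k hk
    rw [Function.mem_support] at hk
    rw [HahnSeries.mem_support, ← hc k]
    exact fun h0 => hk ((map_eq_zero_iff _ (algebraMap Qb ℂ).injective).1 h0)
  let y : LaurentSeries Qb := ⟨c, (qExpFF N h).isPWO_support.mono hsupp⟩
  have hy : coeffMap (algebraMap Qb ℂ) y = qExpFF N h := by
    ext k
    rw [coeffMap_coeff]
    exact hc k
  have hymem : y ∈ laurentBaseChange Qb (modularFunctionFieldFull N) := by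
    apply mem_laurentBaseChange_of_coeffMap_mem (algebraMap Qb ℂ)
    rw [hy]
    exact qExpFF_mem N h
  refine ⟨⟨y, hymem⟩, ?_⟩
  apply qExpFF_injective N
  rw [qExpFF_ΦF, hy]

end Algebra

end Fermat.Agent.S29lib.D
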