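/-
S29lib / D / AsmHeckeNorm (helper2).
`HeckeInput` (Hecke compatibility of the Kummer characters on `J₀(N)(ℚ̄)`) from its function-level
form `HeckeNormInput`: the Kummer character of the norm `N_α(β f)` (resp. `N_β(α f)` for `ℓ ∣ N`)
is the combinatorial Hecke operator applied to the Kummer character of `f`.
Uses helper3's `kummerRel_heckeStd / kummerRel_heckeTr`.
-/
import Mathlib
import Fermat.Agent.S29lib.D.AsmHecke
import Fermat.Agent.S29lib.D.KummerHecke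
import Fermat.Agent.S29lib.D.Fan

set_option autoImplicit false
set_option linter.unusedSectionVars false

noncomputable section

namespace Fermat.Agent.S29lib.D

open Fermat.Agent.ProgramR Fermat.Agent.ProgramR.BarField Fermat.Agent.S18lib AlgebraicCurve
open Fermat.Agent.S16lib.LG CongruenceSubgroup ModularCurve
open scoped MatrixGroups

attribute [local instance] Genus.cosetFintype

/-- `ℚ̄` -/
local notation "Qb" => AlgebraicClosure ℚ

variable (N : ℕ) [NeZero N]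

open Classical in
/-- the Kummer representative of `TJ ℓ x`: `N_α(β f)` if `ℓ ∤ N`, `N_β(α f)` if `ℓ ∣ N`. -/
def normTJ (ℓ : Nat.Primes) (f : FBar Qb N) : FBar Qb N :=
  haveI : NeZero (ℓ : ℕ) := ⟨ℓ.2.ne_zero⟩
  if (ℓ : ℕ) ∣ N then normTr N ℓ f else normStd N ℓ f

lemma normTJ_of_dvd {ℓ : Nat.Primes} (h : (ℓ : ℕ) ∣ N) (f : FBar Qb N) :
    normTJ N ℓ f = (haveI : NeZero (ℓ : ℕ) := ⟨ℓ.2.ne_zero⟩; normTr N ℓ f) := by
  rw [normTJ, if_pos h]

lemma normTJ_of_not_dvd {ℓ : Nat.Primes} (h : ¬ (ℓ : ℕ) ∣ N) (f : FBar Qb N) :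
    normTJ N ℓ f = (haveI : NeZero (ℓ : ℕ) := ⟨ℓ.2.ne_zero⟩; normStd N ℓ f) := by
  rw [normTJ, if_neg h]

/-- Kummer representatives are transported by `TJ`. -/
theorem kummerRel_TJ {n : ℕ} (ℓ : Nat.Primes) {x : JZero N} {f : FBar Qb N}
    (h : KummerRel n x f) : KummerRel n (H.TJ N ℓ x) (normTJ N ℓ f) := by
  haveI : NeZero (ℓ : ℕ) := ⟨ℓ.2.ne_zero⟩
  by_cases hd : (ℓ : ℕ) ∣ N
  · rw [H.TJ_of_dvd N hd, normTJ_of_dvd N hd]
    exact kummerRel_heckeTr N ℓ h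
  · rw [H.TJ_of_not_dvd N hd, normTJ_of_not_dvd N hd]
    exact kummerRel_heckeStd N ℓ h

variable [Algebra Qb ℂ]

/-- **the function-level Hecke input** (helper1's H2). -/
def HeckeNormInput (n : ℕ) [NeZero n] : Prop :=
  ∀ (ℓ : Nat.Primes) (f : FBar Qb N) (ψ : Additive ↥(Gamma0 N) →+ ZMod n),
    ψ ∈ K3.Hom0 N (ZMod n) → f ≠ 0 → (∀ v : Place Qb (FBar Qb N), (n : ℤ) ∣ v.ord f) →
    K1.IsKum (Gamma0 N) n (ΦF N f) (K3.expChar n ψ) →
    K1.IsKum (Gamma0 N) n (ΦF N (normTJ N ℓ f)) (K3.expChar n (H.combT N ℓ (ZMod n) ψ))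

variable {N}

theorem heckeInput_of_norm {n : ℕ} [NeZero n] (h : HeckeNormInput N n) :
    HeckeInput N (algebraMap Qb ℂ) n := by
  intro ℓ x ψ hψ hx
  obtain ⟨D, f, hD, hf, hDf, hR⟩ := hx
  have hK : KummerRel n x f := ⟨hf, D, hD, hDf⟩
  obtain ⟨hf', D', hD', hDf'⟩ := kummerRel_TJ N ℓ hK
  refine ⟨D', normTJ N ℓ f, hD', hf', hDf', ?_⟩
  exact h ℓ f ψ hψ hf (fun v => ⟨_, (hDf v).symm⟩) hR

end Fermat.Agent.S29lib.D
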