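/-
S29lib / D / AsmMain (helper2, brick B4).
`Z.CompStatement` from the inputs of the blocks K1/K2/K3 (Kummer theory over `ℂ`), D (descent) and
H2 (Hecke compatibility), bundled as `KInputs` and `HeckeInput`.
-/
import Mathlib
import Fermat.Agent.S29lib.D.AsmHecke
import Fermat.Agent.S29lib.GH.HeckeGalois
import Fermat.Agent.S29lib.P.EigenInputOf
import Fermat.Agent.S29lib.Z.Assemble

set_option autoImplicit false
set_option linter.unusedSectionVars false

noncomputable section

namespace Fermat.Agent.S29lib.D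

open Fermat.Agent.ProgramR Fermat.Agent.ProgramR.BarField Fermat.Agent.S18lib AlgebraicCurve
open Fermat.Agent.S16lib.LG CongruenceSubgroup ModularCurve
open scoped MatrixGroups

attribute [local instance] Genus.cosetFintype

/-- `ℚ̄` -/
local notation "Qb" => AlgebraicClosure ℚ

variable {N : ℕ} [NeZero N] {e : Qb →+* ℂ} {p : ℕ}

/-- **the comparison data** from the inputs. -/
def comparisonData (hp : p.Prime) (I : ∀ k : ℕ, KInputs N e (p ^ k))
    (hH : ∀ k : ℕ, haveI : NeZero (p ^ k) := ⟨pow_ne_zero k hp.ne_zero⟩; HeckeInput N e (p ^ k)) :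
    ComparisonData N p :=
  haveI : ∀ k : ℕ, NeZero (p ^ k) := fun k => ⟨pow_ne_zero k hp.ne_zero⟩
  { TJ := H.TJ N
    TJ_good := H.TJ_good N
    TJ_galois := GH.TJ_galois N
    r := K3.rank N
    t := H.tMat (vzBasis N)
    κ := fun k => kappa (I k)
    κ_hecke := fun k ℓ x => kappa_hecke (I k) (hH k) ℓ x
    κ_compat := fun k x =>
      kappa_compat (pow_succ p k) (I k) (I (k + 1)) x _ rfl }

lemma comparisonData_t (hp : p.Prime) (I : ∀ k : ℕ, KInputs N e (p ^ k))
    (hH : ∀ k : ℕ, haveI : NeZero (p ^ k) := ⟨pow_ne_zero k hp.ne_zero⟩; HeckeInput N e (p ^ k)) :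
    (comparisonData hp I hH).t = H.tMat (vzBasis N) := rfl

/-- **`CompStatement` from the inputs.** -/
theorem compStatement_of_inputs
    (h : ∀ (N : ℕ) [NeZero N] (p : ℕ) (hp : p.Prime), ∃ e : Qb →+* ℂ,
      (∀ k : ℕ, KInputs N e (p ^ k)) ∧
      ∀ k : ℕ, haveI : NeZero (p ^ k) := ⟨pow_ne_zero k hp.ne_zero⟩; HeckeInput N e (p ^ k)) :
    Z.CompStatement := by
  intro N _ p hp
  obtain ⟨e, I, hH⟩ := h N p hp
  refine ⟨comparisonData hp I hH, fun g hg => ⟨?_⟩⟩
  exact P.eigenInputOf (comparisonData hp I hH) (vzBasis N) (comparisonData_t hp I hH) hg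

end Fermat.Agent.S29lib.D
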