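/-
S29lib / D / Unramified  (helper3, block D).

**(H2)** constant field extensions of curves are unramified, in the prelude language.

`F / K` and `F' / K'` curves (`IsCurveOfGenus`), `Φ : F →+* F'` mapping constants to constants
and non-constants to non-constants.  Assume that there is a set `T` of functions on `F` such that
every place of `F` is a zero of some `y ∈ T`, and `deg (y)₀ = deg (Φ y)₀` for `y ∈ T`
(in the application `T = {j - a} ∪ {1/j}` and both degrees are `[F : K(j)] = [F' : K'(j)] = ψ(N)`).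
Then every place `P` of `F` has a place `P'` of `F'` above it with `ord_{P'} ∘ Φ = ord_P`.

Proof: (lying over) a non-constant function with poles only at `P` (Riemann) maps to a non-constant
function, which has a pole `P'`; by (H1) `P'` restricts to `P`.  (counting) choosing a place above
each zero of `y`, `deg (Φ y)₀ ≥ Σ e_Q ord_Q y ≥ Σ ord_Q y = deg (y)₀`, so all `e_Q = 1`.
-/
import Mathlib
import Fermat.Agent.S29lib.D.Restrict
import Fermat.Agent.S18lib.Cech.CurveBasics
import Fermat.Agent.S18lib.Tame.ZeroPole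

set_option autoImplicit false
set_option linter.style.haveILetI false

noncomputable section

namespace Fermat.Agent.S29lib.D

open AlgebraicCurve Fermat.Agent.ProgramR Fermat.Agent.S18lib

variable {K K' F F' : Type*} [Field K] [Field K'] [Field F] [Field F']
  [Algebra K F] [Algebra K' F']

/-- a function without poles on a curve is constant. -/
theorem exists_const_of_forall_ord_nonneg {g : ℕ} (hF : IsCurveOfGenus K F g) {h : F}
    (hh : ∀ Q : Place K F, 0 ≤ Q.ord h) : ∃ c : K, h = algebraMap K F c := by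
  have hmem : h ∈ riemannRochSpace (0 : Divisor K F) := by
    rw [Cech.mem_rr_iff]
    intro v
    right
    simpa using hh v
  rw [hF.riemannRochSpace_zero] at hmem
  obtain ⟨c, hc⟩ := Algebra.mem_bot.1 hmem
  exact ⟨c, hc.symm⟩

/-- Riemann: a non-constant function with poles only at `P`. -/
theorem exists_nonconst_pole_only {g : ℕ} (hF : IsCurveOfGenus K F g) (P : Place K F) :
    ∃ h : F, (∀ c : K, h ≠ algebraMap K F c) ∧ ∀ Q : Place K F, Q ≠ P → 0 ≤ Q.ord h := by
  classical
  set E : Divisor K F := Finsupp.single P ((g : ℤ) + 1) with hE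
  have hdeg : Divisor.degree E = (g : ℤ) + 1 := by
    rw [hE, Divisor.degree_single, hF.deg_eq_one P]; simp
  have h2 : (2 : ℤ) ≤ (Module.finrank K (riemannRochSpace E) : ℤ) := by
    have := hF.riemann_le E
    rw [hdeg] at this
    linarith
  by_contra hcon
  push Not at hcon
  -- all elements of `L(E)` are constant
  have hle : riemannRochSpace E ≤ Submodule.span K {(1 : F)} := by
    intro h hh
    by_cases hh0 : h = 0
    · rw [hh0]; exact Submodule.zero_mem _
    by_cases hc : ∃ c : K, h = algebraMap K F c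
    · obtain ⟨c, rfl⟩ := hc
      rw [Submodule.mem_span_singleton]
      exact ⟨c, by rw [Algebra.smul_def, mul_one]⟩
    · exfalso
      push Not at hc
      obtain ⟨Q, hQP, hQ⟩ := hcon h hc
      have := (Cech.mem_rr_of_ne hh0).1 hh Q
      rw [hE, Finsupp.single_apply, if_neg (Ne.symm hQP)] at this
      omega
  have h1 : Module.finrank K (riemannRochSpace E) ≤ 1 := by
    calc Module.finrank K (riemannRochSpace E)
        ≤ Module.finrank K (Submodule.span K {(1 : F)}) := Submodule.finrank_mono hle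
      _ = 1 := finrank_span_singleton one_ne_zero
  omega

section LyingOver

variable (Φ : F →+* F')
  (hΦ : ∀ a : K, ∃ b : K', Φ (algebraMap K F a) = algebraMap K' F' b)
  (hconst : ∀ u : F, (∃ c : K', Φ u = algebraMap K' F' c) → ∃ c₀ : K, u = algebraMap K F c₀)
  {g g' : ℕ} (hF : IsCurveOfGenus K F g) (hF' : IsCurveOfGenus K' F' g')
include hΦ hconst hF hF'

/-- **lying over**: every place of `F` is the restriction of a place of `F'`. -/
theorem exists_place_above (P : Place K F) :
    ∃ (P' : Place K' F') (e : ℕ), 0 < e ∧ ∀ z : F, P'.ord (Φ z) = e * P.ord z := by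
  obtain ⟨h, hnc, hpole⟩ := exists_nonconst_pole_only hF P
  have hnc' : ¬ ∃ c : K', Φ h = algebraMap K' F' c := by
    intro hc
    obtain ⟨c₀, hc₀⟩ := hconst h hc
    exact hnc c₀ hc₀
  have hex : ∃ P' : Place K' F', P'.ord (Φ h) < 0 := by
    by_contra hcon
    push Not at hcon
    exact hnc' (exists_const_of_forall_ord_nonneg hF' hcon)
  obtain ⟨P', hP'⟩ := hex
  have hh0 : h ≠ 0 := by
    rintro rfl
    exact hnc 0 (by simp)
  rcases exists_place_restrict Φ hΦ P' with h0 | ⟨Q, e, he, hQ⟩
  · rw [h0 h hh0] at hP'; omega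
  · refine ⟨P', e, he, ?_⟩
    have hQP : Q = P := by
      by_contra hne
      have h1 := hpole Q hne
      rw [hQ h] at hP'
      have : (0 : ℤ) ≤ e * Q.ord h := mul_nonneg (Int.natCast_nonneg _) h1
      omega
    rw [← hQP]
    exact hQ

end LyingOver

/-- two places of `F` with proportional order functions coincide. -/
theorem place_eq_of_ord_proportional {P Q : Place K F} {a b : ℕ} (ha : 0 < a) (hb : 0 < b)
    (h : ∀ z : F, (a : ℤ) * P.ord z = b * Q.ord z) : P = Q := by
  apply Place.ext
  ext z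
  rw [FF.mem_iff_ord_nonneg, FF.mem_iff_ord_nonneg]
  have ha' : (0 : ℤ) < a := by exact_mod_cast ha
  have hb' : (0 : ℤ) < b := by exact_mod_cast hb
  constructor
  · intro hz
    have h1 : (0 : ℤ) ≤ b * Q.ord z := by rw [← h z]; exact mul_nonneg ha'.le hz
    exact nonneg_of_mul_nonneg_right h1 hb'
  · intro hz
    have h1 : (0 : ℤ) ≤ a * P.ord z := by rw [h z]; exact mul_nonneg hb'.le hz
    exact nonneg_of_mul_nonneg_right h1 ha'

section Main

variable (Φ : F →+* F')
  (hΦ : ∀ a : K, ∃ b : K', Φ (algebraMap K F a) = algebraMap K' F' b)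
  (hconst : ∀ u : F, (∃ c : K', Φ u = algebraMap K' F' c) → ∃ c₀ : K, u = algebraMap K F c₀)
  {g g' : ℕ} (hF : IsCurveOfGenus K F g) (hF' : IsCurveOfGenus K' F' g')
include hΦ hconst hF hF'

/-- **(H2)**: if some function `y` vanishing at `P` has zero divisors of the same degree on `F`
and on `F'`, then there is a place above `P` with ramification index `1`. -/
theorem exists_place_above_unramified (P : Place K F) {y : F}
    (hyP : 0 < P.ord y)
    (hdeg : letI := hF.hasPrincipalDivisors; letI := hF'.hasPrincipalDivisors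
      Divisor.degree (Tame.zeroDiv (K := K) y) = Divisor.degree (Tame.zeroDiv (K := K') (Φ y))) :
    ∃ P' : Place K' F', ∀ z : F, P'.ord (Φ z) = P.ord z := by
  classical
  letI := hF.hasPrincipalDivisors
  letI := hF'.hasPrincipalDivisors
  set Z := Tame.zeroDiv (K := K) y with hZ
  set Z' := Tame.zeroDiv (K := K') (Φ y) with hZ'
  -- choose a place above every place
  choose ι e he hι using exists_place_above Φ hΦ hconst hF hF'
  have hιinj : Function.Injective ι := by
    intro Q₁ Q₂ h12
    refine place_eq_of_ord_proportional (he Q₁) (he Q₂) fun z => ?_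
    rw [← hι Q₁ z, ← hι Q₂ z, h12]
  have hZapply : ∀ Q : Place K F, Z Q = max (Q.ord y) 0 := fun Q => Tame.zeroDiv_apply y Q
  have hZ'apply : ∀ Q' : Place K' F', Z' Q' = max (Q'.ord (Φ y)) 0 :=
    fun Q' => Tame.zeroDiv_apply (Φ y) Q'
  have hZ'ι : ∀ Q : Place K F, Z' (ι Q) = e Q * Z Q := by
    intro Q
    rw [hZ'apply, hZapply, hι Q y]
    have he' : (0 : ℤ) < e Q := by exact_mod_cast he Q
    rcases le_total (Q.ord y) 0 with h | h
    · rw [max_eq_right h, max_eq_right (mul_nonpos_of_nonneg_of_nonpos he'.le h), mul_zero]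
    · rw [max_eq_left h, max_eq_left (mul_nonneg he'.le h)]
  have hZnn : ∀ Q, 0 ≤ Z Q := fun Q => by rw [hZapply]; exact le_max_right _ _
  have hZ'nn : ∀ Q', 0 ≤ Z' Q' := fun Q' => by rw [hZ'apply]; exact le_max_right _ _
  -- the degrees as sums
  have hd : Divisor.degree Z = ∑ Q ∈ Z.support, Z Q := by
    rw [Cech.degree_eq_sum']
    exact Finset.sum_congr rfl fun Q _ => by rw [hF.deg_eq_one Q]; simp
  have hd' : Divisor.degree Z' = ∑ Q' ∈ Z'.support, Z' Q' := by
    rw [Cech.degree_eq_sum']
    exact Finset.sum_congr rfl fun Q _ => by rw [hF'.deg_eq_one Q]; simp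
  have hsub : Z.support.image ι ⊆ Z'.support := by
    intro Q' hQ'
    obtain ⟨Q, hQ, rfl⟩ := Finset.mem_image.1 hQ'
    rw [Finsupp.mem_support_iff] at hQ ⊢
    rw [hZ'ι]
    have he' : (e Q : ℤ) ≠ 0 := by exact_mod_cast (he Q).ne'
    exact mul_ne_zero he' hQ
  have h1 : ∑ Q ∈ Z.support, (e Q : ℤ) * Z Q ≤ ∑ Q' ∈ Z'.support, Z' Q' := by
    calc ∑ Q ∈ Z.support, (e Q : ℤ) * Z Q = ∑ Q ∈ Z.support, Z' (ι Q) :=
          Finset.sum_congr rfl fun Q _ => (hZ'ι Q).symm
      _ = ∑ Q' ∈ Z.support.image ι, Z' Q' :=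
          (Finset.sum_image fun a _ b _ hab => hιinj hab).symm
      _ ≤ ∑ Q' ∈ Z'.support, Z' Q' :=
          Finset.sum_le_sum_of_subset_of_nonneg hsub fun Q' _ _ => hZ'nn Q'
  have h2 : ∑ Q ∈ Z.support, ((e Q : ℤ) - 1) * Z Q ≤ 0 := by
    have : ∑ Q ∈ Z.support, ((e Q : ℤ) - 1) * Z Q
        = ∑ Q ∈ Z.support, (e Q : ℤ) * Z Q - ∑ Q ∈ Z.support, Z Q := by
      rw [← Finset.sum_sub_distrib]
      exact Finset.sum_congr rfl fun Q _ => by ring
    rw [this, ← hd, ← hd', ← hZ, ← hZ'] at *
    have hdeg' : Divisor.degree Z = Divisor.degree Z' := hdeg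
    linarith
  have h3 : ∀ Q ∈ Z.support, 0 ≤ ((e Q : ℤ) - 1) * Z Q := fun Q _ => by
    have he' : (1 : ℤ) ≤ e Q := by exact_mod_cast he Q
    exact mul_nonneg (by linarith) (hZnn Q)
  have h4 := (Finset.sum_eq_zero_iff_of_nonneg h3).1 (le_antisymm h2 (Finset.sum_nonneg h3))
  have hPmem : P ∈ Z.support := by
    rw [Finsupp.mem_support_iff, hZapply, max_eq_left hyP.le]
    exact hyP.ne'
  have h5 := h4 P hPmem
  have hZP : Z P ≠ 0 := Finsupp.mem_support_iff.1 hPmem
  have h6 : (e P : ℤ) = 1 := by
    have := (mul_eq_zero.1 h5).resolve_right hZP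
    linarith
  refine ⟨ι P, fun z => ?_⟩
  rw [hι P z, h6, one_mul]

end Main

end Fermat.Agent.S29lib.D
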