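/-
S29lib / D / UnramInst  (helper3, block D).

**(B1)** the constant field extension `FBar ℚ̄ N ⊆ Fan N` is unramified: every place `P` of
`FBar ℚ̄ N / ℚ̄` has a place `P'` of `Fan N / ℂ` above it with `ord_{P'} ∘ ΦF = ord_P`.
Instance of `exists_place_above_unramified` with `y = j - a` or `y = 1 / j`; the degrees of the
zero divisors are `ψ(N)` on both sides.
-/
import Mathlib
import Fermat.Agent.S29lib.D.Fan
import Fermat.Agent.S29lib.D.Unramified
import Fermat.Agent.S18lib.Gin0.Genus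
import Fermat.Agent.S18lib.RRgen.Main
import Fermat.Agent.S18lib.RHCount.PoleDegree

set_option autoImplicit false
set_option linter.unusedSectionVars false
set_option linter.style.haveILetI false

noncomputable section

namespace Fermat.Agent.S29lib.D

open AlgebraicCurve CongruenceSubgroup ModularCurve
open Fermat.Agent.ProgramR Fermat.Agent.ProgramR.Alg Fermat.Agent.ProgramR.BarField
  Fermat.Agent.ProgramR.Descent Fermat.Agent.S18lib Fermat.Agent.ProgramR.RR

attribute [local instance] Genus.cosetFintype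

/-- `ℚ̄` -/
local notation "Qb" => AlgebraicClosure ℚ

variable (N : ℕ) [NeZero N]

/-- the analytic function field is a curve in the sense of the prelude. -/
theorem exists_isCurveOfGenus_Fan : ∃ g : ℕ, IsCurveOfGenus ℂ (Fan N) g := by
  letI : IsScalarTower ℂ (Ainf ℂ) (Fan N) := IsScalarTower.of_algebraMap_eq fun c => by
    rw [IsScalarTower.algebraMap_apply ℂ (RatFunc ℂ) (Fan N),
      IsScalarTower.algebraMap_apply (Ainf ℂ) (RatFunc ℂ) (Fan N)]
    rfl
  letI : Algebra ℂ ↥(Binf ℂ ↥(WH0 (Gamma0 N))) := Subalgebra.algebra' (Binf ℂ ↥(WH0 (Gamma0 N)))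
  letI : IsScalarTower ℂ ↥(Binf ℂ ↥(WH0 (Gamma0 N))) (Fan N) :=
    IsScalarTower.of_algebraMap_eq fun c => rfl
  exact ⟨_, RRgen.isCurveOfGenus ℂ (Fan N) ↥(WH0 (Gamma0 N)) (Binf ℂ ↥(WH0 (Gamma0 N)))⟩

/-- `deg (j)_∞ = ψ(N)` on the analytic curve. -/
theorem degree_poleDiv_X_Fan [HasPrincipalDivisors ℂ (Fan N)] :
    Divisor.degree (Tame.poleDiv (K := ℂ) (algebraMap (RatFunc ℂ) (Fan N) RatFunc.X)) =
      (dedekindPsi N : ℤ) := by
  letI : IsScalarTower ℂ (Ainf ℂ) (Fan N) := IsScalarTower.of_algebraMap_eq fun c => by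
    rw [IsScalarTower.algebraMap_apply ℂ (RatFunc ℂ) (Fan N),
      IsScalarTower.algebraMap_apply (Ainf ℂ) (RatFunc ℂ) (Fan N)]
    rfl
  letI : Algebra ℂ ↥(Binf ℂ ↥(WH0 (Gamma0 N))) := Subalgebra.algebra' (Binf ℂ ↥(WH0 (Gamma0 N)))
  letI : IsScalarTower ℂ ↥(Binf ℂ ↥(WH0 (Gamma0 N))) (Fan N) :=
    IsScalarTower.of_algebraMap_eq fun c => rfl
  rw [RHCount.degree_poleDiv_eq_finrank ℂ (Fan N) ↥(Binf ℂ ↥(WH0 (Gamma0 N))), finrank_FF,
    WH0.finrank_Gamma0]

variable [Algebra Qb ℂ]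

/-- `ΦF` maps `j` to `j`. -/
lemma ΦF_X : ΦF N (algebraMap (RatFunc Qb) (FBar Qb N) RatFunc.X) =
    algebraMap (RatFunc ℂ) (Fan N) RatFunc.X := by
  rw [algebraMap_ratFunc_X]
  have h1 : algebraMap (RatFunc ℂ) (Fan N) RatFunc.X = xF ℂ (Fan N) := rfl
  rw [h1, xF_eq_algebraMap_jdWH0]
  exact ΦBar_jdBar N (algebraMap Qb ℂ) 1 (one_dvd N)

/-- **(B1)** -/
theorem exists_place_above_Fan (P : Place Qb (FBar Qb N)) :
    ∃ P' : Place ℂ (Fan N), ∀ z : FBar Qb N, P'.ord (ΦF N z) = P.ord z := by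
  obtain ⟨g, hF, -⟩ := Gin0.exists_isCurveOfGenus_FBar N
  obtain ⟨g', hF'⟩ := exists_isCurveOfGenus_Fan N
  letI := hF.hasPrincipalDivisors
  letI := hF'.hasPrincipalDivisors
  have hΦ : ∀ a : Qb, ∃ b : ℂ, ΦF N (algebraMap Qb (FBar Qb N) a) = algebraMap ℂ (Fan N) b :=
    fun a => ⟨_, ΦF_algebraMap N a⟩
  set x : FBar Qb N := algebraMap (RatFunc Qb) (FBar Qb N) RatFunc.X with hx
  set x' : Fan N := algebraMap (RatFunc ℂ) (Fan N) RatFunc.X with hx'
  have hxx' : ΦF N x = x' := ΦF_X N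
  have hdx : Divisor.degree (Tame.poleDiv (K := Qb) x) = (dedekindPsi N : ℤ) := by
    rw [hx, Gin0.algebraMap_ratFunc_X_eq_jF]
    exact Gin0.degree_poleDiv_jF N
  have hdx' : Divisor.degree (Tame.poleDiv (K := ℂ) x') = (dedekindPsi N : ℤ) :=
    degree_poleDiv_X_Fan N
  have hxtr : ∀ a : Qb, x - algebraMap Qb (FBar Qb N) a ≠ 0 := by
    intro a h0
    have h1 : x = algebraMap Qb (FBar Qb N) a := sub_eq_zero.1 h0
    have h2 : Tame.poleDiv (K := Qb) x = 0 := by
      ext v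
      rw [Tame.poleDiv_apply, h1, Cech.ord_const]
      simp
    rw [h2, map_zero] at hdx
    have hpos : 0 < dedekindPsi N := by
      have h3 := finrank_ratFunc_Qbar N
      have h4 : 0 < Module.finrank (RatFunc Qb) (FBar Qb N) := Module.finrank_pos
      omega
    have : (0 : ℤ) < (dedekindPsi N : ℤ) := by exact_mod_cast hpos
    omega
  rcases lt_or_ge (P.ord x) 0 with hneg | hnn
  · -- a pole of `j`: use `y = 1 / j`
    have hx0 : x ≠ 0 := by
      rintro h0
      rw [h0, Place.ord_zero] at hneg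
      omega
    refine exists_place_above_unramified (ΦF N) hΦ (ΦF_const N) hF hF' P (y := x⁻¹)
      (by rw [P.ord_inv]; omega) ?_
    have e1 : Tame.zeroDiv (K := Qb) x⁻¹ = Tame.poleDiv (K := Qb) x := by
      ext v
      rw [Tame.zeroDiv_apply, Tame.poleDiv_apply, v.ord_inv]
    have e2 : Tame.zeroDiv (K := ℂ) (ΦF N x⁻¹) = Tame.poleDiv (K := ℂ) x' := by
      ext v
      rw [Tame.zeroDiv_apply, Tame.poleDiv_apply, map_inv₀, v.ord_inv, hxx']
    rw [e1, e2, hdx, hdx']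
  · -- a finite place: use `y = j - a`
    have hmem : x ∈ P.toValuationSubring := (FF.mem_iff_ord_nonneg P x).2 hnn
    obtain ⟨a, ha⟩ := Cech.exists_value_of_deg_eq_one P (hF.deg_eq_one P) hmem
    have ha' : 1 ≤ P.ord (x - algebraMap Qb (FBar Qb N) a) := by
      rcases ha with h | h
      · exact absurd (sub_eq_zero.2 h) (hxtr a)
      · exact h
    refine exists_place_above_unramified (ΦF N) hΦ (ΦF_const N) hF hF' P
      (y := x - algebraMap Qb (FBar Qb N) a) (by omega) ?_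
    have hy' : ΦF N (x - algebraMap Qb (FBar Qb N) a)
        = x' - algebraMap ℂ (Fan N) (algebraMap Qb ℂ a) := by
      rw [map_sub, hxx', ΦF_algebraMap]
    have hne' : x' - algebraMap ℂ (Fan N) (algebraMap Qb ℂ a) ≠ 0 := by
      rw [← hy']
      exact (map_ne_zero (ΦF N)).2 (hxtr a)
    rw [Tame.degree_zeroDiv, Tame.degree_zeroDiv, hy', Tame.poleDiv_sub_const x a (hxtr a),
      Tame.poleDiv_sub_const x' _ hne', hdx, hdx']

end Fermat.Agent.S29lib.D
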