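/-
S29lib / D / Final  (helper3, block D): the three statements on Kummer representatives over `ℚ̄`
in final form (only the finiteness of `Pic⁰(Fan N)[n]` is left as a hypothesis; it comes from the
analytic Kummer theory, block K3).

* `D.dvd_ord_ΦF`            (D-dvd, in `Inst.lean`)
* `D.exists_pow_eq_of_ΦF'`  (D-inj)
* `D.exists_descent_Fan'`   (D-surj)
* `D.exists_const_FBar`     (functions without zeros and poles on `FBar ℚ̄ N` are constant)
-/
import Mathlib
import Fermat.Agent.S29lib.D.Inst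
import Fermat.Agent.S29lib.D.UnramInst

set_option autoImplicit false
set_option linter.unusedSectionVars false

noncomputable section

namespace Fermat.Agent.S29lib.D

open AlgebraicCurve CongruenceSubgroup ModularCurve
open Fermat.Agent.ProgramR Fermat.Agent.ProgramR.Alg Fermat.Agent.ProgramR.BarField
  Fermat.Agent.ProgramR.Descent Fermat.Agent.S18lib

attribute [local instance] Genus.cosetFintype

/-- `ℚ̄` -/
local notation "Qb" => AlgebraicClosure ℚ

variable (N : ℕ) [NeZero N]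

/-- functions without zeros and poles on `FBar ℚ̄ N` are constant. -/
theorem exists_const_FBar {f : FBar Qb N} (hf : ∀ P : Place Qb (FBar Qb N), P.ord f = 0) :
    ∃ c : Qb, algebraMap Qb (FBar Qb N) c = f := by
  obtain ⟨g, hF, -⟩ := Gin0.exists_isCurveOfGenus_FBar N
  obtain ⟨c, hc⟩ := exists_const_of_forall_ord_nonneg hF (fun Q => (hf Q).ge)
  exact ⟨c, hc.symm⟩

/-- functions without zeros and poles on `Fan N` are constant. -/
theorem exists_const_Fan {f : Fan N} (hf : ∀ P : Place ℂ (Fan N), P.ord f = 0) :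
    ∃ c : ℂ, algebraMap ℂ (Fan N) c = f := by
  obtain ⟨g, hF⟩ := exists_isCurveOfGenus_Fan N
  obtain ⟨c, hc⟩ := exists_const_of_forall_ord_nonneg hF (fun Q => (hf Q).ge)
  exact ⟨c, hc.symm⟩

/-- principal divisors exist on `FBar ℚ̄ N`. -/
theorem hasPrincipalDivisors_FBar : HasPrincipalDivisors Qb (FBar Qb N) := by
  obtain ⟨g, hF, -⟩ := Gin0.exists_isCurveOfGenus_FBar N
  exact hF.hasPrincipalDivisors

/-- principal divisors exist on `Fan N`. -/
theorem hasPrincipalDivisors_Fan : HasPrincipalDivisors ℂ (Fan N) := by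
  obtain ⟨g, hF⟩ := exists_isCurveOfGenus_Fan N
  exact hF.hasPrincipalDivisors

variable [Algebra Qb ℂ]

/-- **(D-inj)**: if `ΦF f` is an `n`-th power in `Fan N`, then `f` is an `n`-th power. -/
theorem exists_pow_eq_of_ΦF' {n : ℕ} (hn : 0 < n) {f : FBar Qb N} (hf : f ≠ 0) {h' : Fan N}
    (h : ΦF N f = h' ^ n) : ∃ g : FBar Qb N, g ≠ 0 ∧ g ^ n = f := by
  obtain ⟨g', hF'⟩ := exists_isCurveOfGenus_Fan N
  exact exists_pow_eq_of_ΦF N hF' hn hf h

/-- **(D-surj)**: every `f' ∈ Fan N` with `n ∣ div f'` is `ΦF f₀` up to an `n`-th power, with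
`n ∣ div f₀`. -/
theorem exists_descent_Fan' {n : ℕ} (hn : 0 < n)
    (hfin : (Pic0.torsion ℂ (Fan N) n : Set (Pic0 ℂ (Fan N))).Finite)
    {f' : Fan N} (hf' : f' ≠ 0) (hdvd : ∀ P' : Place ℂ (Fan N), (n : ℤ) ∣ P'.ord f') :
    ∃ f₀ : FBar Qb N, f₀ ≠ 0 ∧ (∀ P : Place Qb (FBar Qb N), (n : ℤ) ∣ P.ord f₀) ∧
      ∃ u : Fan N, u ≠ 0 ∧ f' * u ^ n = ΦF N f₀ := by
  obtain ⟨g', hF'⟩ := exists_isCurveOfGenus_Fan N
  exact exists_descent_Fan N hF' hn hfin (exists_place_above_Fan N) hf' hdvd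

end Fermat.Agent.S29lib.D
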