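/-
S29lib / D / KInputsOf (helper6).
The producer of helper2's `KInputs N e n` (the inputs of the Kummer isomorphism over `ℚ̄`), for
the embedding `e = algebraMap ℚ̄ ℂ` of a variable instance `[Algebra ℚ̄ ℂ]` and every `n > 0`:
(dict), (par), (surjC) from block K3 (`K3/Final.lean`), (inj), (surjD) from block D (`D/Final.lean`).
-/
import Mathlib
import Fermat.Agent.S29lib.D.AsmKummer
import Fermat.Agent.S29lib.D.Final
import Fermat.Agent.S29lib.K3.Final

set_option autoImplicit false
set_option linter.unusedSectionVars false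

noncomputable section

namespace Fermat.Agent.S29lib.D

open Fermat.Agent.ProgramR Fermat.Agent.ProgramR.BarField AlgebraicCurve CongruenceSubgroup
open scoped MatrixGroups

attribute [local instance] Genus.cosetFintype

/-- `ℚ̄` -/
local notation "Qb" => AlgebraicClosure ℚ

/-- **the inputs of the Kummer isomorphism over `ℚ̄`**, for every exponent. -/
theorem kInputs (N : ℕ) [NeZero N] [Algebra Qb ℂ] {n : ℕ} (hn : 0 < n) :
    KInputs N (algebraMap Qb ℂ) n where
  dict := K3.hdictAn N hn
  inj := fun _ hf ⟨g', hg'⟩ => exists_pow_eq_of_ΦF' N hn hf (h' := g') hg'.symm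
  par := fun f' χ hf' hdvd hK => (K3.hYAn hn (K3.ellInput N hn) f' χ hf' hdvd hK).2
  surjC := fun χ hχ => K3.hsurjAn hn (K3.ellInput N hn) χ hχ
  surjD := fun _ hf' hdvd =>
    exists_descent_Fan' N hn (K3.finite_torsionAn N hn) hf' hdvd

end Fermat.Agent.S29lib.D
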