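/-
S29lib / D / AsmFinal (helper2).
`Z.CompAt p` and `Z.CompStatement` from the single remaining input `HeckeNormInput` (helper1's H2):
all the other inputs (`KInputs`) are discharged by `D.kInputs`.
-/
import Mathlib
import Fermat.Agent.S29lib.D.AsmMain
import Fermat.Agent.S29lib.D.AsmHeckeNorm
import Fermat.Agent.S29lib.D.KInputsOf

set_option autoImplicit false
set_option linter.unusedSectionVars false

noncomputable section

namespace Fermat.Agent.S29lib.D

open Fermat.Agent.ProgramR Fermat.Agent.ProgramR.BarField Fermat.Agent.S18lib AlgebraicCurve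
open Fermat.Agent.S16lib.LG CongruenceSubgroup ModularCurve
open scoped MatrixGroups

attribute [local instance] Genus.cosetFintype

/-- `ℚ̄` -/
local notation "Qb" => AlgebraicClosure ℚ

/-- an embedding `ℚ̄ → ℂ`, as an algebra structure (not an instance). -/
def algebraQbC : Algebra Qb ℂ :=
  (IsAlgClosed.lift (R := ℚ) (S := Qb) (M := ℂ)).toRingHom.toAlgebra

/-- **`CompAt p` from the Hecke input.** -/
theorem compAt_of_heckeNorm [Algebra Qb ℂ] {p : ℕ} (hp : p.Prime)
    (h : ∀ (N : ℕ) [NeZero N] (k : ℕ),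
      haveI : NeZero (p ^ k) := ⟨pow_ne_zero k hp.ne_zero⟩; HeckeNormInput N (p ^ k)) :
    Z.CompAt p := by
  intro N _
  have I : ∀ k : ℕ, KInputs N (algebraMap Qb ℂ) (p ^ k) :=
    fun k => kInputs N (pow_pos hp.pos k)
  have hH : ∀ k : ℕ, haveI : NeZero (p ^ k) := ⟨pow_ne_zero k hp.ne_zero⟩;
      HeckeInput N (algebraMap Qb ℂ) (p ^ k) := fun k =>
    haveI : NeZero (p ^ k) := ⟨pow_ne_zero k hp.ne_zero⟩
    heckeInput_of_norm (h N k)
  refine ⟨comparisonData hp I hH, fun g hg => ⟨?_⟩⟩
  exact P.eigenInputOf (comparisonData hp I hH) (vzBasis N) (comparisonData_t hp I hH) hg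

/-- **`CompStatement` from the Hecke input.** -/
theorem compStatement_of_heckeNorm [Algebra Qb ℂ]
    (h : ∀ (N : ℕ) [NeZero N] (n : ℕ) [NeZero n], HeckeNormInput N n) : Z.CompStatement :=
  Z.compStatement_iff.2 fun _ hp => compAt_of_heckeNorm hp fun N _ k =>
    haveI : NeZero (_ ^ k) := ⟨pow_ne_zero k hp.ne_zero⟩
    h N _

end Fermat.Agent.S29lib.D
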