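/-
S29lib / D / KummerRel  (helper3, block D).

The Kummer description of the `n`-torsion of `Pic⁰` of a function field `F / K` in the prelude
language: a class `x` is `n`-torsion iff `n • D = div f` for a degree-zero divisor `D` in the class
and a function `f ≠ 0`; `f` is then a *Kummer representative* of `x` (`KummerRel n x f`).
The representative is unique up to `n`-th powers and functions without zeros and poles, it is
multiplicative in `x`, and `x = 0` iff `f` is an `n`-th power up to such a function.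

No hypothesis on the constant field here; everything is formal from `HasPrincipalDivisors`.
-/
import Mathlib
import Fermat.Agent.S18lib.Tame.ZeroPole

set_option autoImplicit false

noncomputable section

namespace Fermat.Agent.S29lib.D

open AlgebraicCurve Fermat.Agent.S18lib

variable {K F : Type*} [Field K] [Field F] [Algebra K F]

/-- `f` is a Kummer representative of the class `x ∈ Pic⁰(F)`: there is a degree-zero divisor
`D` in the class `x` with `n • D = div f`. -/
def KummerRel (n : ℕ) (x : Pic0 K F) (f : F) : Prop :=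
  f ≠ 0 ∧ ∃ D : Divisor.degZero (K := K) (F := F), Pic0.mk D = x ∧
    ∀ P : Place K F, (n : ℤ) * (D : Divisor K F) P = P.ord f

namespace KummerRel

variable {n : ℕ} {x y : Pic0 K F} {f g : F}

theorem ne_zero (h : KummerRel n x f) : f ≠ 0 := h.1

theorem dvd_ord (h : KummerRel n x f) (P : Place K F) : (n : ℤ) ∣ P.ord f := by
  obtain ⟨-, D, -, hD⟩ := h
  exact ⟨_, (hD P).symm⟩

/-- the class of a Kummer representative is `n`-torsion. -/
theorem torsion (h : KummerRel n x f) : (n : ℤ) • x = 0 := by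
  obtain ⟨hf, D, rfl, hD⟩ := h
  have h1 : (n : ℤ) • Pic0.mk D = Pic0.mk ((n : ℤ) • D) := rfl
  rw [h1]
  refine (QuotientAddGroup.eq_zero_iff _).2 ?_
  rw [AddSubgroup.mem_addSubgroupOf]
  refine ⟨f, hf, fun P => ?_⟩
  rw [← hD P]
  simp

theorem mem_torsion (h : KummerRel n x f) : x ∈ Pic0.torsion K F n :=
  Pic0.mem_torsion.2 h.torsion

end KummerRel

/-- every `n`-torsion class has a Kummer representative. -/
theorem exists_kummerRel {n : ℕ} {x : Pic0 K F} (hx : (n : ℤ) • x = 0) :
    ∃ f : F, KummerRel n x f := by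
  obtain ⟨D, rfl⟩ := Pic0.mk_surjective x
  have h1 : (n : ℤ) • Pic0.mk D = Pic0.mk ((n : ℤ) • D) := rfl
  rw [h1] at hx
  have h2 := (QuotientAddGroup.eq_zero_iff _).1 hx
  rw [AddSubgroup.mem_addSubgroupOf] at h2
  obtain ⟨f, hf, hD⟩ := h2
  refine ⟨f, hf, D, rfl, fun P => ?_⟩
  rw [← hD P]
  simp

theorem kummerRel_zero_one (n : ℕ) : KummerRel n (0 : Pic0 K F) 1 :=
  ⟨one_ne_zero, 0, rfl, fun P => by simp⟩

namespace KummerRel

variable {n : ℕ} {x y : Pic0 K F} {f g : F}

theorem mul (h : KummerRel n x f) (h' : KummerRel n y g) : KummerRel n (x + y) (f * g) := by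
  obtain ⟨hf, D, rfl, hD⟩ := h
  obtain ⟨hg, E, rfl, hE⟩ := h'
  refine ⟨mul_ne_zero hf hg, D + E, rfl, fun P => ?_⟩
  rw [P.ord_mul hf hg, ← hD P, ← hE P]
  simp [mul_add]

theorem inv (h : KummerRel n x f) : KummerRel n (-x) f⁻¹ := by
  obtain ⟨hf, D, rfl, hD⟩ := h
  refine ⟨inv_ne_zero hf, -D, rfl, fun P => ?_⟩
  rw [P.ord_inv, ← hD P]
  simp

/-- multiplying by a function without zeros and poles. -/
theorem unit_mul (h : KummerRel n x f) {w : F} (hw : w ≠ 0) (hw' : ∀ P : Place K F, P.ord w = 0) :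
    KummerRel n x (w * f) := by
  obtain ⟨hf, D, rfl, hD⟩ := h
  refine ⟨mul_ne_zero hw hf, D, rfl, fun P => ?_⟩
  rw [P.ord_mul hw hf, hw' P, zero_add, hD P]

/-- passing from level `n * m` to level `n`. -/
theorem of_mul {m : ℕ} (h : KummerRel (n * m) x f) : KummerRel n ((m : ℤ) • x) f := by
  obtain ⟨hf, D, rfl, hD⟩ := h
  refine ⟨hf, (m : ℤ) • D, rfl, fun P => ?_⟩
  rw [← hD P]
  simp only [AddSubgroupClass.coe_zsmul, Finsupp.smul_apply, smul_eq_mul]
  push_cast
  ring

variable [HasPrincipalDivisors K F]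

/-- the degree-zero divisor of a nonzero function. -/
def divZero (u : F) : Divisor.degZero (K := K) (F := F) :=
  ⟨divOf (K := K) u, Divisor.mem_degZero.2 (degree_divOf u)⟩

theorem mk_divZero {u : F} (hu : u ≠ 0) : Pic0.mk (divZero (K := K) u) = 0 := by
  refine (QuotientAddGroup.eq_zero_iff _).2 ?_
  rw [AddSubgroup.mem_addSubgroupOf]
  exact divOf_mem_principal hu

/-- multiplying by an `n`-th power. -/
theorem mul_pow (h : KummerRel n x f) {u : F} (hu : u ≠ 0) : KummerRel n x (f * u ^ n) := by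
  obtain ⟨hf, D, rfl, hD⟩ := h
  refine ⟨mul_ne_zero hf (pow_ne_zero n hu), D + divZero (K := K) u, ?_, fun P => ?_⟩
  · rw [Pic0.mk_add, mk_divZero hu, add_zero]
  · rw [P.ord_mul hf (pow_ne_zero n hu), ← hD P, ← zpow_natCast, P.ord_zpow]
    simp [divZero, mul_add, divOf_apply hu]

/-- **uniqueness** of the Kummer representative up to `n`-th powers and functions without zeros
and poles. -/
theorem unique (h : KummerRel n x f) (h' : KummerRel n x g) :
    ∃ u w : F, u ≠ 0 ∧ w ≠ 0 ∧ (∀ P : Place K F, P.ord w = 0) ∧ g = w * f * u ^ n := by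
  obtain ⟨hf, D, rfl, hD⟩ := h
  obtain ⟨hg, E, hED, hE⟩ := h'
  have h1 : Pic0.mk (E - D) = 0 := by
    have : Pic0.mk (E - D) = Pic0.mk E - Pic0.mk D := rfl
    rw [this, hED, sub_self]
  have h2 := (QuotientAddGroup.eq_zero_iff _).1 h1
  rw [AddSubgroup.mem_addSubgroupOf] at h2
  obtain ⟨u, hu, hu'⟩ := h2
  have hun : u ^ n ≠ 0 := pow_ne_zero n hu
  refine ⟨u, g * (f * u ^ n)⁻¹, hu, mul_ne_zero hg (inv_ne_zero (mul_ne_zero hf hun)), ?_, ?_⟩
  · intro P
    rw [P.ord_mul hg (inv_ne_zero (mul_ne_zero hf hun)), P.ord_inv, P.ord_mul hf hun,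
      ← zpow_natCast, P.ord_zpow, ← hD P, ← hE P, ← hu' P]
    simp only [AddSubgroupClass.coe_sub, Finsupp.sub_apply]
    ring
  · field_simp

/-- the class vanishes iff the representative is an `n`-th power up to a function without zeros
and poles. -/
theorem eq_zero_iff (hn : 0 < n) (h : KummerRel n x f) :
    x = 0 ↔ ∃ u w : F, u ≠ 0 ∧ w ≠ 0 ∧ (∀ P : Place K F, P.ord w = 0) ∧ f = w * u ^ n := by
  constructor
  · rintro rfl
    obtain ⟨u, w, hu, hw, hw', hfu⟩ := unique (kummerRel_zero_one n) h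
    exact ⟨u, w, hu, hw, hw', by rw [hfu, mul_one]⟩
  · rintro ⟨u, w, hu, hw, hw', rfl⟩
    obtain ⟨-, D, rfl, hD⟩ := h
    refine (QuotientAddGroup.eq_zero_iff _).2 ?_
    rw [AddSubgroup.mem_addSubgroupOf]
    refine ⟨u, hu, fun P => ?_⟩
    have h3 := hD P
    rw [P.ord_mul hw (pow_ne_zero n hu), hw' P, zero_add, ← zpow_natCast, P.ord_zpow] at h3
    have hn' : (n : ℤ) ≠ 0 := by exact_mod_cast hn.ne'
    exact mul_left_cancel₀ hn' h3

end KummerRel

/-- a function all of whose orders are divisible by `n` is a Kummer representative. -/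
theorem exists_kummerRel_of_dvd [HasPrincipalDivisors K F] {n : ℕ} (hn : 0 < n) {f : F}
    (hf : f ≠ 0) (hdvd : ∀ P : Place K F, (n : ℤ) ∣ P.ord f) :
    ∃ x : Pic0 K F, KummerRel n x f := by
  classical
  have hn' : (n : ℤ) ≠ 0 := by exact_mod_cast hn.ne'
  -- the divisor `div f / n`
  let E : Divisor K F :=
    Finsupp.onFinset (divOf (K := K) f).support (fun P => P.ord f / (n : ℤ)) (by
      intro P hP
      rw [Finsupp.mem_support_iff, divOf_apply hf]
      intro h0
      exact hP (by rw [h0, Int.zero_ediv]))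
  have hE : ∀ P : Place K F, (n : ℤ) * E P = P.ord f := fun P => by
    show (n : ℤ) * (P.ord f / (n : ℤ)) = P.ord f
    exact Int.mul_ediv_cancel' (hdvd P)
  have hnE : (n : ℤ) • E = divOf (K := K) f := by
    ext P
    rw [Finsupp.smul_apply, smul_eq_mul, hE P, divOf_apply hf]
  have hdeg : Divisor.degree E = 0 := by
    have h1 : Divisor.degree ((n : ℤ) • E) = 0 := by rw [hnE, degree_divOf]
    rw [map_zsmul, smul_eq_mul] at h1
    exact (mul_eq_zero.1 h1).resolve_left hn'
  exact ⟨Pic0.mk ⟨E, Divisor.mem_degZero.2 hdeg⟩, hf, ⟨E, Divisor.mem_degZero.2 hdeg⟩, rfl, hE⟩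

end Fermat.Agent.S29lib.D
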