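/-
S29lib / D / KummerCorr  (helper3, block D).

Kummer representatives and correspondences: if `f` is a Kummer representative of `x ∈ Pic⁰(F)[n]`
(`n • D = div f`), then the norm along `ψ` of `φ f` is a Kummer representative of the image of `x`
under the correspondence `ψ_* φ^*` (`n • ψ_* φ^* D = div (N_ψ (φ f))`).
-/
import Mathlib
import Fermat.Prelude.Def_AlgebraicCurve_Correspondence
import Fermat.Agent.S29lib.D.KummerRel

set_option autoImplicit false
set_option linter.style.haveILetI false

noncomputable section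

namespace Fermat.Agent.S29lib.D

open AlgebraicCurve

variable {K F F' : Type*} [Field K] [Field F] [Field F'] [Algebra K F] [Algebra K F']

/-- the norm along an algebra homomorphism `ψ : F →ₐ[K] F'`. -/
def normAlong (ψ : F →ₐ[K] F') (h : F') : F :=
  letI := algebraAlong ψ
  Algebra.norm F h

variable [HasPrincipalDivisors K F']
variable (φ ψ : F →ₐ[K] F') (hφ : φ.toRingHom.IsIntegral) (hψ : ψ.toRingHom.IsIntegral)
variable (hFI : FundamentalIdentityAlong K φ hφ)
variable (hfin : FiniteAlong K ψ) (hN : NormFormulaAlong K ψ hfin)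

omit [HasPrincipalDivisors K F'] in
lemma normAlong_ne_zero {h : F'} (hh : h ≠ 0) (hfin : FiniteAlong K ψ) : normAlong ψ h ≠ 0 := by
  letI := algebraAlong ψ
  haveI : Module.Finite F F' := hfin
  exact Algebra.norm_ne_zero_iff.mpr hh

/-- the divisor of `φ f` is the pull-back of the divisor of `f`. -/
lemma pullbackAlong_apply_eq_ord {f : F} {D : Divisor K F}
    (hD : ∀ v : Place K F, D v = v.ord f) (w : Place K F') :
    Divisor.pullbackAlong φ hφ D w = w.ord (φ f) := by
  letI := algebraAlong φ
  haveI := isScalarTower_along φ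
  haveI := isIntegral_along φ hφ
  exact Divisor.pullback_apply_eq_ord hD w

include hN in
/-- the push-forward of the divisor of `h` is the divisor of the norm of `h`. -/
lemma pushforwardAlong_apply_eq_ord {h : F'} (hh : h ≠ 0) {E : Divisor K F'}
    (hE : ∀ w : Place K F', E w = w.ord h) (v : Place K F) :
    Divisor.pushforwardAlong ψ hψ E v = v.ord (normAlong ψ h) := by
  letI := algebraAlong ψ
  haveI := isScalarTower_along ψ
  haveI := isIntegral_along ψ hψ
  haveI : Module.Finite F F' := hfin
  exact hN h hh E hE v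

/-- **Kummer representatives under a correspondence.** -/
theorem KummerRel.correspondence {n : ℕ} {x : Pic0 K F} {f : F} (h : KummerRel n x f) :
    KummerRel n (Pic0.correspondence φ ψ hφ hψ hFI hfin hN x) (normAlong ψ (φ f)) := by
  obtain ⟨hf, D, rfl, hD⟩ := h
  have hφf : φ f ≠ 0 := (map_ne_zero φ).2 hf
  refine ⟨normAlong_ne_zero ψ hφf hfin, Pic0.degZeroCorrespondence φ ψ hφ hψ hFI D,
    Pic0.correspondence_mk φ ψ hφ hψ hFI hfin hN D |>.symm, fun P => ?_⟩
  rw [Pic0.coe_degZeroCorrespondence]
  have h1 : ∀ v : Place K F, ((n : ℤ) • (D : Divisor K F)) v = v.ord f := fun v => by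
    rw [Finsupp.smul_apply, smul_eq_mul, hD v]
  have h2 := pushforwardAlong_apply_eq_ord ψ hψ hfin hN hφf
    (E := Divisor.pullbackAlong φ hφ ((n : ℤ) • (D : Divisor K F)))
    (fun w => pullbackAlong_apply_eq_ord φ hφ h1 w) P
  rw [← h2, ← Divisor.correspondence_apply, map_zsmul, Finsupp.smul_apply, smul_eq_mul]

end Fermat.Agent.S29lib.D
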