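/-
S29lib / D / InfPlace  (helper3, block D).

The place at infinity `pinf N` of `Fan N / ℂ` (valuation ring: `q`-expansions without pole), and
the leading coefficient `lcFan N : Fan N →*₀ ℂ` of the `q`-expansion; both are compatible with the
coefficientwise action of `Aut ℂ`.
-/
import Mathlib
import Fermat.Agent.S29lib.D.Fan
import Fermat.Agent.ProgramR.FunctionField.PlaceDedekind
import Fermat.Prelude.Thm_ModularCurve_coeff_jqModC_neg_one

set_option autoImplicit false
set_option linter.unusedSectionVars false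

noncomputable section

namespace Fermat.Agent.S29lib.D

open AlgebraicCurve CongruenceSubgroup ModularCurve
open Fermat.Agent.ProgramR Fermat.Agent.ProgramR.Alg Fermat.Agent.ProgramR.BarField
  Fermat.Agent.ProgramR.Descent

attribute [local instance] Genus.cosetFintype

/-- a valuation subring described by an integer valued order function is a principal ideal
ring. -/
theorem isPrincipalIdealRing_of_ord {F : Type*} [Field F] (A : ValuationSubring F) (w : F → ℤ)
    (hA : ∀ z : F, z ≠ 0 → (z ∈ A ↔ 0 ≤ w z))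
    (hdiv : ∀ z z' : F, z ≠ 0 → z' ≠ 0 → w (z / z') = w z - w z') : IsPrincipalIdealRing A := by
  classical
  refine ⟨fun I => ?_⟩
  by_cases hI : I = ⊥
  · exact hI ▸ ⟨⟨0, by simp⟩⟩
  have hex : ∃ n : ℕ, ∃ z : A, z ∈ I ∧ z ≠ 0 ∧ w (z : F) = n := by
    obtain ⟨z, hzI, hz0⟩ := Submodule.exists_mem_ne_zero_of_ne_bot hI
    have hzF : (z : F) ≠ 0 := fun h => hz0 (Subtype.ext h)
    obtain ⟨n, hn⟩ := Int.eq_ofNat_of_zero_le ((hA _ hzF).1 z.2)
    exact ⟨n, z, hzI, hz0, hn⟩
  obtain ⟨z₀, hz₀I, hz₀0, hz₀⟩ := Nat.find_spec hex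
  have hmin : ∀ z : A, z ∈ I → z ≠ 0 → w (z₀ : F) ≤ w (z : F) := by
    intro z hzI hz0
    have hzF : (z : F) ≠ 0 := fun h => hz0 (Subtype.ext h)
    obtain ⟨n, hn⟩ := Int.eq_ofNat_of_zero_le ((hA _ hzF).1 z.2)
    have := Nat.find_min' hex ⟨z, hzI, hz0, hn⟩
    rw [hz₀, hn]
    exact_mod_cast this
  refine ⟨⟨z₀, le_antisymm ?_ ?_⟩⟩
  · intro x hx
    rw [Submodule.mem_span_singleton]
    by_cases hx0 : x = 0
    · exact ⟨0, by simp [hx0]⟩
    have hz₀F : (z₀ : F) ≠ 0 := fun h => hz₀0 (Subtype.ext h)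
    have hxF : (x : F) ≠ 0 := fun h => hx0 (Subtype.ext h)
    have hmem : (x : F) / (z₀ : F) ∈ A := by
      rw [hA _ (div_ne_zero hxF hz₀F), hdiv _ _ hxF hz₀F]
      have := hmin x hx hx0
      omega
    refine ⟨⟨(x : F) / (z₀ : F), hmem⟩, ?_⟩
    apply Subtype.ext
    show (x : F) / (z₀ : F) * (z₀ : F) = (x : F)
    field_simp
  · rw [Submodule.span_singleton_le_iff_mem]
    exact hz₀I

variable (N : ℕ) [NeZero N]

/-- the order of the `q`-expansion. -/
def ordInf (h : Fan N) : ℤ := (qF N h).order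

lemma qF_ne_zero {h : Fan N} (hh : h ≠ 0) : qF N h ≠ 0 :=
  (map_ne_zero (qF N)).2 hh

lemma ordInf_mul {h₁ h₂ : Fan N} (h1 : h₁ ≠ 0) (h2 : h₂ ≠ 0) :
    ordInf N (h₁ * h₂) = ordInf N h₁ + ordInf N h₂ := by
  unfold ordInf
  rw [map_mul, HahnSeries.order_mul (qF_ne_zero N h1) (qF_ne_zero N h2)]

lemma ordInf_one : ordInf N 1 = 0 := by
  unfold ordInf
  rw [map_one, HahnSeries.order_one]

lemma ordInf_inv {h : Fan N} (hh : h ≠ 0) : ordInf N h⁻¹ = -ordInf N h := by
  have := ordInf_mul N hh (inv_ne_zero hh)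
  rw [mul_inv_cancel₀ hh, ordInf_one] at this
  omega

lemma ordInf_div {h₁ h₂ : Fan N} (h1 : h₁ ≠ 0) (h2 : h₂ ≠ 0) :
    ordInf N (h₁ / h₂) = ordInf N h₁ - ordInf N h₂ := by
  rw [div_eq_mul_inv, ordInf_mul N h1 (inv_ne_zero h2), ordInf_inv N h2]
  ring

/-- the valuation ring at infinity. -/
def vsInf : ValuationSubring (Fan N) where
  carrier := {h | 0 ≤ ordInf N h}
  mul_mem' := by
    intro a b ha hb
    by_cases ha0 : a = 0
    · simp [ha0, ordInf]
    by_cases hb0 : b = 0
    · simp [hb0, ordInf]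
    show 0 ≤ ordInf N (a * b)
    rw [ordInf_mul N ha0 hb0]
    exact add_nonneg ha hb
  one_mem' := by
    show 0 ≤ ordInf N 1
    rw [ordInf_one]
  add_mem' := by
    intro a b ha hb
    show 0 ≤ ordInf N (a + b)
    by_cases hab : a + b = 0
    · simp [hab, ordInf]
    unfold ordInf
    rw [map_add]
    have hab' : qF N a + qF N b ≠ 0 := by
      rw [← map_add]; exact qF_ne_zero N hab
    exact le_trans (le_min ha hb) (HahnSeries.min_order_le_order_add hab')
  zero_mem' := by
    show 0 ≤ ordInf N 0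
    simp [ordInf]
  neg_mem' := by
    intro a ha
    show 0 ≤ ordInf N (-a)
    unfold ordInf
    rw [map_neg, HahnSeries.order_neg]
    exact ha
  mem_or_inv_mem' := by
    intro a
    by_cases ha0 : a = 0
    · left
      show 0 ≤ ordInf N a
      rw [ha0]
      simp [ordInf]
    rcases le_total 0 (ordInf N a) with h | h
    · exact Or.inl h
    · right
      show 0 ≤ ordInf N a⁻¹
      rw [ordInf_inv N ha0]
      omega

lemma mem_vsInf {h : Fan N} : h ∈ vsInf N ↔ 0 ≤ ordInf N h := Iff.rfl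

lemma ordInf_algebraMap (c : ℂ) : ordInf N (algebraMap ℂ (Fan N) c) = 0 := by
  unfold ordInf
  rw [qF_algebraMap, HahnSeries.order_C]

/-- the modular function `j` in `Fan N`. -/
def jFan : Fan N := toFF N (jBar ℂ N)

lemma qF_jFan : qF N (jFan N) = jqModC ℂ := by
  unfold jFan
  rw [qF_eq, qExpFF_toFunField, coe_jBar]
  simp

lemma ordInf_jFan_neg : ordInf N (jFan N) < 0 := by
  unfold ordInf
  rw [qF_jFan]
  have h1 : (jqModC ℂ).coeff (-1 : ℤ) ≠ 0 := by
    rw [coeff_jqModC_neg_one]; exact one_ne_zero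
  have := HahnSeries.order_le_of_coeff_ne_zero h1
  omega

/-- **the place at infinity** of `Fan N`. -/
def pinf : Place ℂ (Fan N) where
  toValuationSubring := vsInf N
  algebraMap_mem' := fun c => by
    rw [mem_vsInf, ordInf_algebraMap]
  ne_top' := by
    intro htop
    have : jFan N ∈ vsInf N := htop ▸ ValuationSubring.mem_top _
    rw [mem_vsInf] at this
    have := ordInf_jFan_neg N
    omega
  isPrincipalIdealRing' :=
    isPrincipalIdealRing_of_ord (vsInf N) (ordInf N) (fun _ _ => Iff.rfl)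
      (fun _ _ h1 h2 => ordInf_div N h1 h2)

@[simp] lemma pinf_toValuationSubring : (pinf N).toValuationSubring = vsInf N := rfl

/-- the order at infinity is invariant under `Aut ℂ`. -/
lemma ordInf_autFan (τ : ℂ ≃+* ℂ) (h : Fan N) : ordInf N (autFan N τ h) = ordInf N h := by
  unfold ordInf
  rw [qF_autFan]
  by_cases hh : qF N h = 0
  · rw [hh, map_zero]
  have hsupp : (coeffMap (τ : ℂ →+* ℂ) (qF N h)).support = (qF N h).support := by
    ext k
    simp only [HahnSeries.mem_support, coeffMap_coeff, ne_eq]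
    rw [RingEquiv.coe_toRingHom, map_eq_zero_iff τ τ.injective]
  have hne : coeffMap (τ : ℂ →+* ℂ) (qF N h) ≠ 0 := by
    intro h0
    apply hh
    ext k
    have := congrArg (fun z => z.coeff k) h0
    simp only [coeffMap_coeff, HahnSeries.coeff_zero] at this
    rw [RingEquiv.coe_toRingHom, map_eq_zero_iff τ τ.injective] at this
    simpa using this
  rw [HahnSeries.order_of_ne hne, HahnSeries.order_of_ne hh]
  congr 1

/-- the place at infinity is fixed by `Aut ℂ`. -/
theorem semiFan_smul_pinf (τ : ℂ ≃+* ℂ) : semiFan N τ • pinf N = pinf N := by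
  apply Place.ext
  ext h
  rw [SemilinearAut.smul_toValuationSubring,
    ValuationSubring.mem_pointwise_smul_iff_inv_smul_mem, pinf_toValuationSubring, mem_vsInf,
    mem_vsInf]
  have h1 : (semiFan N τ)⁻¹ • h = autFan N τ⁻¹ h := by
    rw [← map_inv]; rfl
  rw [h1, ordInf_autFan]

/-- **the leading coefficient** of the `q`-expansion. -/
def lcFan : Fan N →*₀ ℂ where
  toFun h := (qF N h).leadingCoeff
  map_zero' := by rw [map_zero, HahnSeries.leadingCoeff_zero]
  map_one' := by rw [map_one, HahnSeries.leadingCoeff_one]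
  map_mul' a b := by rw [map_mul, HahnSeries.leadingCoeff_mul]

lemma lcFan_apply (h : Fan N) : lcFan N h = (qF N h).leadingCoeff := rfl

lemma lcFan_algebraMap (c : ℂ) : lcFan N (algebraMap ℂ (Fan N) c) = c := by
  rw [lcFan_apply, qF_algebraMap, HahnSeries.C_apply, HahnSeries.leadingCoeff_of_single]

lemma lcFan_autFan (τ : ℂ ≃+* ℂ) (h : Fan N) : lcFan N (autFan N τ h) = τ (lcFan N h) := by
  rw [lcFan_apply, lcFan_apply, HahnSeries.leadingCoeff_eq, HahnSeries.leadingCoeff_eq]
  have h1 : (qF N (autFan N τ h)).order = (qF N h).order := ordInf_autFan N τ h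
  rw [h1, qF_autFan, coeffMap_coeff]
  rfl

end Fermat.Agent.S29lib.D
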