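/-
S29lib / D / KummerHecke  (helper3, block D).

Kummer representatives of the images of a torsion class under the Hecke operators
`H.heckeStd N ℓ = α_* β^*` and `H.heckeTr N ℓ = β_* α^*` on `J₀(N)(ℚ̄)`:
if `n • D = div f` then `n • T D = div (N_α (β f))`, resp. `div (N_β (α f))`.
-/
import Mathlib
import Fermat.Agent.S29lib.D.KummerCorr
import Fermat.Agent.S29lib.H.TJ

set_option autoImplicit false
set_option linter.style.haveILetI false
set_option linter.unusedSectionVars false

noncomputable section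

namespace Fermat.Agent.S29lib.D

open AlgebraicCurve ModularCurve
open Fermat.Agent.S37lib.HeckeInst

local notation "Qb" => AlgebraicClosure ℚ

variable (N : ℕ) [NeZero N] (ℓ : ℕ) [NeZero ℓ]

/-- the norm of `β f` along `α`. -/
def normStd (f : modularFunctionFieldBar N) : modularFunctionFieldBar N :=
  normAlong (heckeAlphaBar Qb N ℓ) (heckeBetaBar Qb N ℓ f)

/-- the norm of `α f` along `β`. -/
def normTr (f : modularFunctionFieldBar N) : modularFunctionFieldBar N :=
  normAlong (heckeBetaBar Qb N ℓ) (heckeAlphaBar Qb N ℓ f)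

theorem kummerRel_heckeStd {n : ℕ} {x : JZero N} {f : modularFunctionFieldBar N}
    (h : KummerRel n x f) : KummerRel n (H.heckeStd N ℓ x) (normStd N ℓ f) := by
  haveI := hasPrincipalDivisors_FB (N * ℓ)
  exact KummerRel.correspondence (heckeBetaBar Qb N ℓ) (heckeAlphaBar Qb N ℓ)
    (heckeBetaBarIntegral N ℓ) (heckeAlphaBarIntegral N ℓ) (fundamentalIdentityAlong_beta N ℓ)
    (finiteAlong_alpha N ℓ) (normFormulaAlong_alpha N ℓ) h

theorem kummerRel_heckeTr {n : ℕ} {x : JZero N} {f : modularFunctionFieldBar N}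
    (h : KummerRel n x f) : KummerRel n (H.heckeTr N ℓ x) (normTr N ℓ f) := by
  haveI := hasPrincipalDivisors_FB (N * ℓ)
  exact KummerRel.correspondence (heckeAlphaBar Qb N ℓ) (heckeBetaBar Qb N ℓ)
    (heckeAlphaBarIntegral N ℓ) (heckeBetaBarIntegral N ℓ) (fundamentalIdentityAlong_alpha N ℓ)
    (finiteAlong_beta N ℓ) (normFormulaAlong_beta N ℓ) h

end Fermat.Agent.S29lib.D
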