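/-
S29lib / D / DescentCore  (helper3, block D).

Abstract Galois descent for Kummer classes.  `F / K ⊆ F' / K'` a constant field extension of
curves (`Φ : F →+* F'`), `Γ` a group acting semilinearly on `F' / K'` fixing `Φ F`, such that
every element of `F'` fixed by a subgroup of finite index of `Γ` lies in `Φ F`; a `Γ`-equivariant
multiplicative "leading coefficient" `lc : F' → K'`; a `Γ`-fixed place `P∞` of `F'`.

* `DescentSetup.exists_of_pow_eq` (injectivity): `Φ f = c · h' ^ n` with `h' ∈ F'`, `c ∈ K'`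
  implies `f = c₀ · h₀ ^ n` with `h₀ ∈ F`, `c₀ ∈ K`.
* `DescentSetup.exists_descent` (surjectivity): if `Pic⁰(F')[n]` is finite, every `f' ∈ F'` all of
  whose orders are divisible by `n` is `Φ f₀` up to an `n`-th power.
-/
import Mathlib
import Fermat.Prelude.Def_AlgebraicCurve_BaseChangeGalois
import Fermat.Agent.S29lib.D.KummerRel
import Fermat.Agent.S29lib.D.Unramified

set_option autoImplicit false
set_option linter.style.haveILetI false

noncomputable section

namespace Fermat.Agent.S29lib.D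

open AlgebraicCurve Fermat.Agent.ProgramR Fermat.Agent.S18lib

/-- the data for Galois descent along a constant field extension `F / K ⊆ F' / K'`. -/
structure DescentSetup (K K' F F' : Type*) [Field K] [Field K'] [Field F] [Field F']
    [Algebra K F] [Algebra K' F'] (Γ : Type*) [Group Γ] where
  /-- the embedding of the constants -/
  ι : K →+* K'
  /-- the embedding of the function fields -/
  Φ : F →+* F'
  Φ_algebraMap : ∀ a : K, Φ (algebraMap K F a) = algebraMap K' F' (ι a)
  Φ_const : ∀ u : F, (∃ c : K', Φ u = algebraMap K' F' c) → ∃ c₀ : K, u = algebraMap K F c₀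
  /-- the semilinear action -/
  ρ : Γ →* SemilinearAut K' F'
  ρ_Φ : ∀ (σ : Γ) (z : F), ρ σ • Φ z = Φ z
  desc : ∀ (H : Subgroup Γ), H.FiniteIndex → ∀ h : F', (∀ σ ∈ H, ρ σ • h = h) → h ∈ Set.range Φ
  /-- the leading coefficient -/
  lc : F' →*₀ K'
  lc_const : ∀ c : K', lc (algebraMap K' F' c) = c
  lc_smul : ∀ (σ : Γ) (h : F'), lc (ρ σ • h) = SemilinearAut.baseAut (ρ σ) (lc h)
  /-- a rational place fixed by the action -/
  Pinf : Place K' F'
  ρ_Pinf : ∀ σ : Γ, ρ σ • Pinf = Pinf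

variable {K K' F F' : Type*} [Field K] [Field K'] [Field F] [Field F']
  [Algebra K F] [Algebra K' F'] {Γ : Type*} [Group Γ]

lemma ord_smul_eq (g : SemilinearAut K' F') (P : Place K' F') (f : F') :
    P.ord (g • f) = (g⁻¹ • P).ord f := by
  have := SemilinearAut.ord_smul g (g⁻¹ • P) f
  rwa [smul_inv_smul] at this

namespace DescentSetup

variable (S : DescentSetup K K' F F' Γ)

lemma Φ_const' : ∀ a : K, ∃ b : K', S.Φ (algebraMap K F a) = algebraMap K' F' b :=
  fun a => ⟨S.ι a, S.Φ_algebraMap a⟩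

/-- an element of `F'` which every `σ` multiplies by a constant is fixed after normalising the
leading coefficient. -/
lemma normalize_fixed {h : F'} (hh : h ≠ 0) (σ : Γ) {a : K'}
    (ha : S.ρ σ • h = algebraMap K' F' a * h) :
    S.ρ σ • (algebraMap K' F' (S.lc h)⁻¹ * h) = algebraMap K' F' (S.lc h)⁻¹ * h := by
  have hlc : S.lc h ≠ 0 := (map_ne_zero S.lc).2 hh
  have h1 : SemilinearAut.baseAut (S.ρ σ) (S.lc h) = a * S.lc h := by
    rw [← S.lc_smul, ha, map_mul, S.lc_const]
  rw [smul_mul', SemilinearAut.smul_algebraMap, ha, map_inv₀, h1, ← mul_assoc, ← map_mul]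
  congr 2
  have ha0 : a ≠ 0 := by
    rintro rfl
    rw [map_zero, zero_mul] at ha
    exact hh ((smul_eq_zero_iff_eq (S.ρ σ)).1 ha)
  field_simp

variable {g' : ℕ} (hF' : IsCurveOfGenus K' F' g')
include hF'

/-- **injectivity of the base change of Kummer classes**: if `Φ f` is an `n`-th power in `F'`
up to a constant, then `f` is an `n`-th power in `F` up to a constant. -/
theorem exists_of_pow_eq {n : ℕ} (hn : 0 < n) {f : F} (hf : f ≠ 0) {h' : F'} {c : K'}
    (hfh : S.Φ f = algebraMap K' F' c * h' ^ n) :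
    ∃ (c₀ : K) (h₀ : F), h₀ ≠ 0 ∧ f = algebraMap K F c₀ * h₀ ^ n := by
  have hΦf : S.Φ f ≠ 0 := (map_ne_zero S.Φ).2 hf
  have hh' : h' ≠ 0 := by
    rintro rfl
    rw [zero_pow hn.ne', mul_zero] at hfh
    exact hΦf hfh
  have hc : c ≠ 0 := by
    rintro rfl
    rw [map_zero, zero_mul] at hfh
    exact hΦf hfh
  -- every `σ` multiplies `h'` by a constant
  have hconst : ∀ σ : Γ, ∃ a : K', S.ρ σ • h' = algebraMap K' F' a * h' := by
    intro σ
    set w := (S.ρ σ • h') / h' with hw
    have hσh' : S.ρ σ • h' ≠ 0 := fun h0 => hh' ((smul_eq_zero_iff_eq (S.ρ σ)).1 h0)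
    have hw0 : w ≠ 0 := div_ne_zero hσh' hh'
    have hwn : w ^ n = algebraMap K' F' (c / SemilinearAut.baseAut (S.ρ σ) c) := by
      have h1 := congrArg (fun z => S.ρ σ • z) hfh
      simp only [S.ρ_Φ, smul_mul', smul_pow', SemilinearAut.smul_algebraMap] at h1
      have hσc : SemilinearAut.baseAut (S.ρ σ) c ≠ 0 :=
        (map_ne_zero (SemilinearAut.baseAut (S.ρ σ))).2 hc
      have hσc' : algebraMap K' F' (SemilinearAut.baseAut (S.ρ σ) c) ≠ 0 :=
        (map_ne_zero _).2 hσc
      rw [hw, div_pow, map_div₀]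
      rw [hfh] at h1
      field_simp
      linear_combination (-1 : F') * h1
    -- so `w` has no zeros and poles
    have hord : ∀ P : Place K' F', 0 ≤ P.ord w := by
      intro P
      have h2 : P.ord (w ^ n) = 0 := by rw [hwn]; exact Cech.ord_const P _
      rw [Cech.ord_pow] at h2
      have hn' : (n : ℤ) ≠ 0 := by exact_mod_cast hn.ne'
      rw [(mul_eq_zero.1 h2).resolve_left hn']
    obtain ⟨a, ha⟩ := exists_const_of_forall_ord_nonneg hF' hord
    refine ⟨a, ?_⟩
    rw [← ha, hw]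
    field_simp
  -- normalise
  set h'' := algebraMap K' F' (S.lc h')⁻¹ * h' with hh''
  have hlc : S.lc h' ≠ 0 := (map_ne_zero S.lc).2 hh'
  have hfix : ∀ σ ∈ (⊤ : Subgroup Γ), S.ρ σ • h'' = h'' := by
    intro σ _
    obtain ⟨a, ha⟩ := hconst σ
    exact S.normalize_fixed hh' σ ha
  obtain ⟨h₀, hh₀⟩ := S.desc ⊤ inferInstance h'' hfix
  have hh''0 : h'' ≠ 0 := mul_ne_zero ((map_ne_zero _).2 (inv_ne_zero hlc)) hh'
  have hh₀0 : h₀ ≠ 0 := by
    rintro rfl
    rw [map_zero] at hh₀
    exact hh''0 hh₀.symm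
  -- `f / h₀ ^ n` is a constant
  have h3 : S.Φ (f / h₀ ^ n) = algebraMap K' F' (c * S.lc h' ^ n) := by
    rw [map_div₀, map_pow, hh₀, hfh, hh'', mul_pow, ← map_pow, map_mul, inv_pow]
    have : algebraMap K' F' (S.lc h' ^ n) ≠ 0 := (map_ne_zero _).2 (pow_ne_zero n hlc)
    rw [map_inv₀]
    field_simp
  obtain ⟨c₀, hc₀⟩ := S.Φ_const _ ⟨_, h3⟩
  refine ⟨c₀, h₀, hh₀0, ?_⟩
  rw [← hc₀]
  field_simp

end DescentSetup

end Fermat.Agent.S29lib.D
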