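/-
S29lib / D / DescentSurj  (helper3, block D).

**Surjectivity of the base change of Kummer classes** (abstract Galois descent).
In the situation of `DescentSetup`, if `Pic⁰(F')[n]` is finite then every `f' ∈ F'` all of whose
orders are divisible by `n` is of the form `Φ f₀ · u ^ (-n)`.

Proof.  `D' := div f' / n`.  The stabiliser `H` of the class of `D'` has finite index.  Let `m` be
minimal with `L(D' + m P∞) ≠ 0`; this space is a line `K' u`.  For `σ ∈ H` write
`σ D' = D' + div w`; then `w · σ u ∈ L(D' + m P∞)`, so `w · σ u = c u`, and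
`σ (f' uⁿ) = (const) f' uⁿ`.  Normalising the leading coefficient, `f' uⁿ` is fixed by `H`, hence
descends.
-/
import Mathlib
import Fermat.Agent.S29lib.D.DescentCore

set_option autoImplicit false
set_option linter.style.haveILetI false

noncomputable section

namespace Fermat.Agent.S29lib.D

open AlgebraicCurve Fermat.Agent.ProgramR Fermat.Agent.S18lib

variable {K K' F F' : Type*} [Field K] [Field K'] [Field F] [Field F']
  [Algebra K F] [Algebra K' F'] {Γ : Type*} [Group Γ]

namespace DescentSetup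

variable (S : DescentSetup K K' F F' Γ)

/-- the stabiliser in `Γ` of a class in `Pic⁰(F')`. -/
def stab (x' : Pic0 K' F') : Subgroup Γ where
  carrier := {σ | S.ρ σ • x' = x'}
  one_mem' := by simp
  mul_mem' := fun {a b} ha hb => by
    change S.ρ a • x' = x' at ha
    change S.ρ b • x' = x' at hb
    change S.ρ (a * b) • x' = x'
    rw [map_mul, mul_smul, hb, ha]
  inv_mem' := fun {a} ha => by
    change S.ρ a • x' = x' at ha
    change S.ρ a⁻¹ • x' = x'
    rw [map_inv, inv_smul_eq_iff, ha]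

lemma mem_stab {x' : Pic0 K' F'} {σ : Γ} : σ ∈ S.stab x' ↔ S.ρ σ • x' = x' := Iff.rfl

/-- the stabiliser of a torsion class has finite index when the torsion is finite. -/
lemma stab_finiteIndex {n : ℕ} (hfin : (Pic0.torsion K' F' n : Set (Pic0 K' F')).Finite)
    {x' : Pic0 K' F'} (hx' : x' ∈ Pic0.torsion K' F' n) : (S.stab x').FiniteIndex := by
  letI : MulAction Γ (Pic0 K' F') := MulAction.compHom _ S.ρ
  have hstab : S.stab x' = MulAction.stabilizer Γ x' := by
    ext σ
    rw [mem_stab, MulAction.mem_stabilizer_iff]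
    rfl
  have horb : (MulAction.orbit Γ x').Finite := by
    refine hfin.subset ?_
    rintro _ ⟨σ, rfl⟩
    exact SemilinearAut.smul_mem_torsion (S.ρ σ) hx'
  haveI : Finite (MulAction.orbit Γ x') := horb.to_subtype
  haveI : Finite (Γ ⧸ MulAction.stabilizer Γ x') :=
    Finite.of_equiv _ (MulAction.orbitEquivQuotientStabilizer Γ x')
  rw [hstab]
  exact Subgroup.finiteIndex_of_finite_quotient

variable {g' : ℕ} (hF' : IsCurveOfGenus K' F' g')
include hF'

/-- **surjectivity of the base change of Kummer classes**. -/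
theorem exists_descent [IsAlgClosed K'] {n : ℕ} (hn : 0 < n)
    (hfin : (Pic0.torsion K' F' n : Set (Pic0 K' F')).Finite) {f' : F'} (hf' : f' ≠ 0)
    (hdvd : ∀ P' : Place K' F', (n : ℤ) ∣ P'.ord f') :
    ∃ (u : F') (f₀ : F), u ≠ 0 ∧ f' * u ^ n = S.Φ f₀ := by
  classical
  letI := hF'.hasPrincipalDivisors
  have hn' : (n : ℤ) ≠ 0 := by exact_mod_cast hn.ne'
  obtain ⟨x', hx'⟩ := exists_kummerRel_of_dvd (K := K') hn hf' hdvd
  have hx'tors := hx'.mem_torsion
  obtain ⟨-, D', hD'x, hD'⟩ := hx'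
  have hdegD' : Divisor.degree (D' : Divisor K' F') = 0 := Divisor.mem_degZero.1 D'.2
  have hdegP : (S.Pinf.deg : ℤ) = 1 := by rw [hF'.deg_eq_one]; rfl
  -- the divisors `D' + m P∞`
  let E : ℤ → Divisor K' F' := fun m => (D' : Divisor K' F') + Finsupp.single S.Pinf m
  have hEdeg : ∀ m : ℤ, Divisor.degree (E m) = m := fun m => by
    show Divisor.degree ((D' : Divisor K' F') + Finsupp.single S.Pinf m) = m
    rw [map_add, hdegD', Divisor.degree_single, hdegP, zero_add, mul_one]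
  have hEapply : ∀ (m : ℤ) (P : Place K' F'),
      E m P = (D' : Divisor K' F') P + if P = S.Pinf then m else 0 := fun m P => by
    show ((D' : Divisor K' F') + Finsupp.single S.Pinf m) P = _
    rw [Finsupp.add_apply, Finsupp.single_apply]
    congr 1
    by_cases h : P = S.Pinf
    · rw [if_pos h, if_pos h.symm]
    · rw [if_neg h, if_neg (Ne.symm h)]
  -- existence of a section for `m = g'`
  have hex : ∃ m : ℕ, ∃ u : F', u ≠ 0 ∧ u ∈ riemannRochSpace (E (m : ℤ)) := by
    refine ⟨g', ?_⟩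
    have h1 := hF'.riemann_le (E (g' : ℤ))
    rw [hEdeg] at h1
    have h2 : 0 < Module.finrank K' (riemannRochSpace (E (g' : ℤ))) := by
      have : (1 : ℤ) ≤ (Module.finrank K' (riemannRochSpace (E (g' : ℤ))) : ℤ) := by linarith
      exact_mod_cast this
    haveI := hF'.finiteDimensional (E (g' : ℤ))
    haveI : Nontrivial (riemannRochSpace (E (g' : ℤ))) := Module.finrank_pos_iff.1 h2
    obtain ⟨u, hu⟩ := exists_ne (0 : riemannRochSpace (E (g' : ℤ)))
    exact ⟨(u : F'), fun h0 => hu (Subtype.ext h0), u.2⟩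
  set m₀ := Nat.find hex with hm₀
  obtain ⟨u, hu0, hu⟩ := Nat.find_spec hex
  -- `L(D' + (m₀ - 1) P∞) = 0`
  have hEm : ∀ v ∈ riemannRochSpace (E ((m₀ : ℤ) - 1)), v = 0 := by
    intro v hv
    rcases Nat.eq_zero_or_pos m₀ with h0 | hpos
    · refine Cech.eq_zero_of_mem_rr_of_degree_neg hF' ?_ hv
      rw [hEdeg, h0]; norm_num
    · by_contra hv0
      have hlt : m₀ - 1 < m₀ := Nat.sub_lt hpos Nat.one_pos
      refine Nat.find_min hex hlt ⟨v, hv0, ?_⟩
      have : ((m₀ - 1 : ℕ) : ℤ) = (m₀ : ℤ) - 1 := by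
        rw [Nat.cast_sub hpos]; rfl
      rw [this]
      exact hv
  have hEsucc : E (m₀ : ℤ) = E ((m₀ : ℤ) - 1) + Finsupp.single S.Pinf 1 := by
    show (D' : Divisor K' F') + Finsupp.single S.Pinf (m₀ : ℤ)
      = (D' : Divisor K' F') + Finsupp.single S.Pinf ((m₀ : ℤ) - 1) + Finsupp.single S.Pinf 1
    rw [add_assoc, ← Finsupp.single_add]
    congr 2
    ring
  -- uniqueness of the section
  have huniq : ∀ v ∈ riemannRochSpace (E (m₀ : ℤ)), ∃ c : K', v = c • u := by
    intro v hv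
    have huE : u ∉ riemannRochSpace (E ((m₀ : ℤ) - 1)) := fun h => hu0 (hEm u h)
    rw [hEsucc] at hv hu
    obtain ⟨c, hc⟩ := Cech.exists_sub_smul_mem_rr hF' (E ((m₀ : ℤ) - 1)) S.Pinf hv hu huE
    exact ⟨c, sub_eq_zero.1 (hEm _ hc)⟩
  -- the function `f'' = f' uⁿ`
  set f'' := f' * u ^ n with hf''
  have hf''0 : f'' ≠ 0 := mul_ne_zero hf' (pow_ne_zero n hu0)
  -- the stabiliser
  have hH : (S.stab x').FiniteIndex := S.stab_finiteIndex hfin hx'tors
  -- every `σ` in the stabiliser multiplies `f''` by a constant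
  have hconst : ∀ σ ∈ S.stab x', ∃ a : K', S.ρ σ • f'' = algebraMap K' F' a * f'' := by
    intro σ hσ
    rw [mem_stab, ← hD'x, SemilinearAut.pic0_smul_mk] at hσ
    have h1 := (QuotientAddGroup.eq).1 hσ
    rw [AddSubgroup.mem_addSubgroupOf] at h1
    obtain ⟨w, hw0, hw⟩ := h1
    -- `ord_P w = D' P - (σ D') P`
    have hw' : ∀ P : Place K' F',
        P.ord w = (D' : Divisor K' F') P - (D' : Divisor K' F') ((S.ρ σ)⁻¹ • P) := by
      intro P
      rw [← hw P]
      simp only [AddSubgroup.coe_add, NegMemClass.coe_neg, SemilinearAut.coe_degZeroSMulHom,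
        Finsupp.add_apply, Finsupp.neg_apply, SemilinearAut.divisor_smul_apply]
      ring
    have hPinf : ∀ P : Place K' F', (S.ρ σ)⁻¹ • P = S.Pinf ↔ P = S.Pinf := by
      intro P
      rw [inv_smul_eq_iff, S.ρ_Pinf]
    have hσu0 : S.ρ σ • u ≠ 0 := fun h0 => hu0 ((smul_eq_zero_iff_eq (S.ρ σ)).1 h0)
    -- `w⁻¹ · σ u ∈ L(D' + m₀ P∞)`
    have hmem : w⁻¹ * (S.ρ σ • u) ∈ riemannRochSpace (E (m₀ : ℤ)) := by
      rw [Cech.mem_rr_of_ne (mul_ne_zero (inv_ne_zero hw0) hσu0)]
      intro P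
      rw [P.ord_mul (inv_ne_zero hw0) hσu0, P.ord_inv, hw' P, ord_smul_eq, hEapply]
      have h2 := (Cech.mem_rr_of_ne hu0).1 hu ((S.ρ σ)⁻¹ • P)
      rw [hEapply] at h2
      by_cases hP : P = S.Pinf
      · rw [if_pos ((hPinf P).2 hP)] at h2
        rw [if_pos hP]
        linarith
      · rw [if_neg (fun h => hP ((hPinf P).1 h))] at h2
        rw [if_neg hP]
        linarith
    obtain ⟨c, hc⟩ := huniq _ hmem
    -- `σ f' = t f' w⁻ⁿ`
    have hσf'0 : S.ρ σ • f' ≠ 0 := fun h0 => hf' ((smul_eq_zero_iff_eq (S.ρ σ)).1 h0)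
    set t := (S.ρ σ • f') * w ^ n / f' with ht
    have ht0 : t ≠ 0 := div_ne_zero (mul_ne_zero hσf'0 (pow_ne_zero n hw0)) hf'
    have htord : ∀ P : Place K' F', 0 ≤ P.ord t := by
      intro P
      rw [ht, ord_div P (mul_ne_zero hσf'0 (pow_ne_zero n hw0)) hf',
        P.ord_mul hσf'0 (pow_ne_zero n hw0), Cech.ord_pow, ord_smul_eq, hw' P, ← hD' P, ← hD']
      ring_nf
      exact le_refl _
    obtain ⟨b, hb⟩ := exists_const_of_forall_ord_nonneg hF' htord
    refine ⟨b * c ^ n, ?_⟩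
    have h3 : S.ρ σ • f' = algebraMap K' F' b * f' * (w ^ n)⁻¹ := by
      rw [← hb, ht]
      field_simp
    have h4 : S.ρ σ • u = w * (c • u) := by
      rw [← hc]
      field_simp
    rw [hf'', smul_mul', smul_pow', h3, h4, Algebra.smul_def, map_mul, map_pow]
    field_simp
    ring
  -- normalise the leading coefficient
  have hlc : S.lc f'' ≠ 0 := (map_ne_zero S.lc).2 hf''0
  set f''' := algebraMap K' F' (S.lc f'')⁻¹ * f'' with hf'''
  have hfix : ∀ σ ∈ S.stab x', S.ρ σ • f''' = f''' := by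
    intro σ hσ
    obtain ⟨a, ha⟩ := hconst σ hσ
    exact S.normalize_fixed hf''0 σ ha
  obtain ⟨f₀, hf₀⟩ := S.desc _ hH f''' hfix
  -- absorb the constant in the `n`-th power
  obtain ⟨d, hd⟩ := IsAlgClosed.exists_pow_nat_eq (S.lc f'')⁻¹ hn
  have hd0 : d ≠ 0 := by
    rintro rfl
    rw [zero_pow hn.ne'] at hd
    exact inv_ne_zero hlc hd.symm
  refine ⟨algebraMap K' F' d * u, f₀, mul_ne_zero ((map_ne_zero _).2 hd0) hu0, ?_⟩
  rw [hf₀, hf''', hf'', mul_pow, ← map_pow, hd]
  ring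

end DescentSetup

end Fermat.Agent.S29lib.D
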