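/-
S29lib / D / Inst  (helper3, block D).

The descent setup for `ΦF N : FBar ℚ̄ N →+* Fan N` with the action of `Aut (ℂ / ℚ̄)`, and the three
statements on Kummer representatives over `ℚ̄` that the assembly of `ComparisonData` uses:

* `dvd_ord_ΦF`      (D-dvd)  : `n ∣ div f` over `ℚ̄` implies `n ∣ div (ΦF f)` over `ℂ`;
* `exists_pow_eq_of_ΦF` (D-inj) : `ΦF f` an `n`-th power in `Fan N` implies `f` an `n`-th power;
* `exists_descent_Fan` (D-surj): every `f' ∈ Fan N` with `n ∣ div f'` is `ΦF f₀` up to an `n`-th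
  power, with `n ∣ div f₀` (given finiteness of `Pic⁰(Fan N)[n]` and unramifiedness (B1)).
-/
import Mathlib
import Fermat.Agent.S29lib.D.InfPlace
import Fermat.Agent.S29lib.D.DescentSurj

set_option autoImplicit false
set_option linter.unusedSectionVars false

noncomputable section

namespace Fermat.Agent.S29lib.D

open AlgebraicCurve CongruenceSubgroup ModularCurve
open Fermat.Agent.ProgramR Fermat.Agent.ProgramR.Alg Fermat.Agent.ProgramR.BarField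
  Fermat.Agent.ProgramR.Descent Fermat.Agent.S18lib

attribute [local instance] Genus.cosetFintype

/-- `ℚ̄` -/
local notation "Qb" => AlgebraicClosure ℚ

variable (N : ℕ) [NeZero N] [Algebra Qb ℂ]

/-- the descent setup for `FBar ℚ̄ N ⊆ Fan N`. -/
def setupFan : DescentSetup Qb ℂ (FBar Qb N) (Fan N) (ℂ ≃ₐ[Qb] ℂ) where
  ι := algebraMap Qb ℂ
  Φ := ΦF N
  Φ_algebraMap := ΦF_algebraMap N
  Φ_const := ΦF_const N
  ρ := rhoFan N
  ρ_Φ := rhoFan_ΦF N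
  desc := mem_range_ΦF_of_fixed N
  lc := lcFan N
  lc_const := lcFan_algebraMap N
  lc_smul := fun σ h => lcFan_autFan N σ.toRingEquiv h
  Pinf := pinf N
  ρ_Pinf := fun σ => semiFan_smul_pinf N σ.toRingEquiv

lemma ΦF_const' (a : Qb) : ∃ b : ℂ, ΦF N (algebraMap Qb (FBar Qb N) a) = algebraMap ℂ (Fan N) b :=
  ⟨_, ΦF_algebraMap N a⟩

/-- **(D-dvd)** -/
theorem dvd_ord_ΦF {n : ℤ} {f : FBar Qb N} (hf : ∀ P : Place Qb (FBar Qb N), n ∣ P.ord f)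
    (P' : Place ℂ (Fan N)) : n ∣ P'.ord (ΦF N f) :=
  dvd_ord_map (ΦF N) (ΦF_const' N) hf P'

/-- **(D-inj)** -/
theorem exists_pow_eq_of_ΦF {g' : ℕ} (hF' : IsCurveOfGenus ℂ (Fan N) g') {n : ℕ} (hn : 0 < n)
    {f : FBar Qb N} (hf : f ≠ 0) {h' : Fan N} (h : ΦF N f = h' ^ n) :
    ∃ g : FBar Qb N, g ≠ 0 ∧ g ^ n = f := by
  have h1 : (setupFan N).Φ f = algebraMap ℂ (Fan N) 1 * h' ^ n := by
    rw [map_one, one_mul]; exact h
  obtain ⟨c₀, h₀, hh₀, hfc⟩ := (setupFan N).exists_of_pow_eq hF' hn hf h1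
  obtain ⟨d, hd⟩ := IsAlgClosed.exists_pow_nat_eq c₀ hn
  have hd0 : d ≠ 0 := by
    rintro rfl
    rw [zero_pow hn.ne'] at hd
    rw [← hd, map_zero, zero_mul] at hfc
    exact hf hfc
  refine ⟨algebraMap Qb (FBar Qb N) d * h₀, mul_ne_zero ((map_ne_zero _).2 hd0) hh₀, ?_⟩
  rw [mul_pow, ← map_pow, hd, hfc]

/-- **(D-surj)** -/
theorem exists_descent_Fan {g' : ℕ} (hF' : IsCurveOfGenus ℂ (Fan N) g') {n : ℕ} (hn : 0 < n)
    (hfin : (Pic0.torsion ℂ (Fan N) n : Set (Pic0 ℂ (Fan N))).Finite)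
    (hB1 : ∀ P : Place Qb (FBar Qb N), ∃ P' : Place ℂ (Fan N),
      ∀ z : FBar Qb N, P'.ord (ΦF N z) = P.ord z)
    {f' : Fan N} (hf' : f' ≠ 0) (hdvd : ∀ P' : Place ℂ (Fan N), (n : ℤ) ∣ P'.ord f') :
    ∃ f₀ : FBar Qb N, f₀ ≠ 0 ∧ (∀ P : Place Qb (FBar Qb N), (n : ℤ) ∣ P.ord f₀) ∧
      ∃ u : Fan N, u ≠ 0 ∧ f' * u ^ n = ΦF N f₀ := by
  obtain ⟨u, f₀, hu, hfu⟩ := (setupFan N).exists_descent hF' hn hfin hf' hdvd
  have hfu' : f' * u ^ n = ΦF N f₀ := hfu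
  have hf₀ : f₀ ≠ 0 := by
    rintro rfl
    rw [map_zero] at hfu'
    exact mul_ne_zero hf' (pow_ne_zero n hu) hfu'
  refine ⟨f₀, hf₀, fun P => ?_, u, hu, hfu'⟩
  obtain ⟨P', hP'⟩ := hB1 P
  rw [← hP' f₀, ← hfu', P'.ord_mul hf' (pow_ne_zero n hu), Cech.ord_pow]
  exact dvd_add (hdvd P') (Dvd.intro _ rfl)

end Fermat.Agent.S29lib.D
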